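/-
Project FF, cell [DICT], part (Q): dimension of the quotients of a Dedekind `K`-algebra all of whose
residue fields are `K` (e.g. the chart of a function field over an algebraically closed field).
Mathlib only.  Prefix `ffd_q_`.

* `ffd_q_exists_gen`   : `I / P I` is generated by one element (`P` maximal, `I ≠ ⊥`);
* `ffd_q_step`         : `dim_K B / P I = dim_K B / I + 1`;
* `ffd_q_finrank`      : `dim_K B / I = ` number of prime factors of `I` (with multiplicity);
* `ffd_q_finrank_mul`  : additivity `dim B / I J = dim B / I + dim B / J`;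
* `ffd_q_finrank_map`  : for `I ≤ J`: `dim B / I = dim B / J + dim J / I`.
-/
import Mathlib

set_option autoImplicit false

namespace Fermat.Agent.FF

open Module UniqueFactorizationMonoid

variable {K B : Type*} [Field K] [CommRing B] [IsDedekindDomain B] [Algebra K B]

/-- For `P` maximal and `I ≠ ⊥` in a Dedekind domain, `I = (a) + P I` for every `a ∈ I ∖ P I`,
and such an `a` exists. -/
theorem ffd_q_exists_gen (I P : Ideal B) (hI : I ≠ ⊥) [hP : P.IsMaximal] :
    ∃ a ∈ I, a ∉ P * I ∧ ∀ y ∈ I, ∃ b : B, y - b * a ∈ P * I := by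
  have hle : P * I ≤ I := Ideal.mul_le_right
  have hne : P * I ≠ I := by
    intro h
    have h1 : I * P = I * ⊤ := by rw [mul_comm, h, Ideal.mul_top]
    have h2 : P = ⊤ := mul_left_cancel₀ hI h1
    exact hP.ne_top h2
  obtain ⟨a, haI, haPI⟩ := SetLike.exists_of_lt (lt_of_le_of_ne hle hne)
  refine ⟨a, haI, haPI, ?_⟩
  set J : Ideal B := Ideal.span {a} ⊔ P * I with hJ
  have hJI : J ≤ I := sup_le ((Ideal.span_singleton_le_iff_mem _).mpr haI) hle
  have hPJ : P * I ≤ J := le_sup_right
  obtain ⟨J', hJ'⟩ := Ideal.dvd_iff_le.mpr hJI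
  have hPJ' : P ≤ J' := by
    have h1 : I * J' ∣ I * P := by
      rw [← hJ', mul_comm I P]
      exact Ideal.dvd_iff_le.mpr hPJ
    exact Ideal.dvd_iff_le.mp ((mul_dvd_mul_iff_left hI).mp h1)
  have hJ'top : J' = ⊤ := by
    by_contra hne'
    have h := hP.eq_of_le hne' hPJ'
    apply haPI
    have : a ∈ J := Ideal.mem_sup_left (Ideal.mem_span_singleton_self a)
    rw [hJ', ← h, mul_comm] at this
    exact this
  have hJeq : J = I := by rw [hJ', hJ'top, Ideal.mul_top]
  intro y hy
  rw [← hJeq, hJ] at hy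
  obtain ⟨b, hb⟩ := Ideal.mem_span_singleton_sup.mp hy
  obtain ⟨z, hz, hbz⟩ := hb
  refine ⟨b, ?_⟩
  have : y - b * a = z := by rw [← hbz]; ring
  rw [this]; exact hz

/-- One step: `dim_K B / (P I) = dim_K B / I + 1` when `B / P = K`. -/
theorem ffd_q_step (I P : Ideal B) (hI : I ≠ ⊥) [hP : P.IsMaximal]
    (hres : Function.Surjective (algebraMap K (B ⧸ P))) [Module.Finite K (B ⧸ I)] :
    Module.Finite K (B ⧸ (P * I)) ∧ finrank K (B ⧸ (P * I)) = finrank K (B ⧸ I) + 1 := by
  obtain ⟨a, haI, haPI, hgen⟩ := ffd_q_exists_gen I P hI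
  have hle : P * I ≤ I := Ideal.mul_le_right
  let f : (B ⧸ (P * I)) →ₗ[K] (B ⧸ I) := (Ideal.Quotient.factorₐ K hle).toLinearMap
  have hfmk : ∀ b : B, f (Ideal.Quotient.mk _ b) = Ideal.Quotient.mk _ b := fun b => rfl
  have hf : Function.Surjective f := Ideal.Quotient.factor_surjective hle
  set e : B ⧸ (P * I) := Ideal.Quotient.mk _ a with he
  have he0 : e ≠ 0 := fun h => haPI (Ideal.Quotient.eq_zero_iff_mem.mp h)
  have hker : LinearMap.ker f = K ∙ e := by
    apply le_antisymm
    · intro y hy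
      obtain ⟨b', rfl⟩ := Ideal.Quotient.mk_surjective y
      rw [LinearMap.mem_ker, hfmk, Ideal.Quotient.eq_zero_iff_mem] at hy
      obtain ⟨b, hb⟩ := hgen b' hy
      obtain ⟨c, hc⟩ := hres (Ideal.Quotient.mk P b)
      rw [← Ideal.Quotient.mk_algebraMap, Ideal.Quotient.eq] at hc
      rw [Submodule.mem_span_singleton]
      refine ⟨c, ?_⟩
      rw [he, Algebra.smul_def, ← Ideal.Quotient.mk_algebraMap, ← map_mul, Ideal.Quotient.eq]
      have h1 : (algebraMap K B c - b) * a ∈ P * I := Ideal.mul_mem_mul hc haI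
      have h2 : algebraMap K B c * a - b' = (algebraMap K B c - b) * a - (b' - b * a) := by ring
      rw [h2]
      exact Ideal.sub_mem _ h1 hb
    · rw [Submodule.span_singleton_le_iff_mem, LinearMap.mem_ker, he, hfmk,
        Ideal.Quotient.eq_zero_iff_mem]
      exact haI
  have hfinker : Module.Finite K (LinearMap.ker f) := by rw [hker]; infer_instance
  have hfinquot : Module.Finite K ((B ⧸ (P * I)) ⧸ LinearMap.ker f) :=
    Module.Finite.equiv (f.quotKerEquivOfSurjective hf).symm
  have hfin : Module.Finite K (B ⧸ (P * I)) := Module.Finite.of_submodule_quotient (LinearMap.ker f)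
  refine ⟨hfin, ?_⟩
  have h1 := LinearMap.finrank_range_add_finrank_ker f
  rw [LinearMap.range_eq_top.mpr hf, finrank_top, hker, finrank_span_singleton he0] at h1
  exact h1.symm

/-- **dimension of a quotient**: in a Dedekind `K`-algebra whose residue fields are all `K`, the
quotient by a nonzero ideal is finite dimensional, of dimension the number of prime factors of the
ideal counted with multiplicity. -/
theorem ffd_q_finrank
    (hres : ∀ P : Ideal B, P.IsMaximal → P ≠ ⊥ → Function.Surjective (algebraMap K (B ⧸ P)))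
    (I : Ideal B) (hI : I ≠ ⊥) :
    Module.Finite K (B ⧸ I) ∧ finrank K (B ⧸ I) = Multiset.card (normalizedFactors I) := by
  induction I using UniqueFactorizationMonoid.induction_on_prime with
  | h₁ => exact absurd rfl hI
  | h₂ J hJ =>
    have hJtop : J = ⊤ := Ideal.isUnit_iff.mp hJ
    subst hJtop
    have hsub : Subsingleton (B ⧸ (⊤ : Ideal B)) := Ideal.Quotient.subsingleton_iff.mpr rfl
    refine ⟨inferInstance, ?_⟩
    rw [finrank_zero_of_subsingleton]
    have : normalizedFactors (⊤ : Ideal B) = 0 := by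
      rw [← Ideal.one_eq_top]; exact normalizedFactors_one
    rw [this, Multiset.card_zero]
  | h₃ J P hJ hP ih =>
    have hJ' : J ≠ ⊥ := hJ
    obtain ⟨hfin, hrank⟩ := ih hJ'
    have hPprime : P.IsPrime := Ideal.isPrime_of_prime hP
    have hPne : P ≠ ⊥ := hP.ne_zero
    have hPmax : P.IsMaximal := hPprime.isMaximal hPne
    obtain ⟨h1, h2⟩ := ffd_q_step (K := K) J P hJ' (hres P hPmax hPne)
    refine ⟨h1, ?_⟩
    rw [h2, hrank, normalizedFactors_mul hPne hJ', normalizedFactors_irreducible hP.irreducible,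
      Multiset.card_add, Multiset.card_singleton, add_comm]

/-- additivity of the dimension of the quotient. -/
theorem ffd_q_finrank_mul
    (hres : ∀ P : Ideal B, P.IsMaximal → P ≠ ⊥ → Function.Surjective (algebraMap K (B ⧸ P)))
    (I J : Ideal B) (hI : I ≠ ⊥) (hJ : J ≠ ⊥) :
    finrank K (B ⧸ (I * J)) = finrank K (B ⧸ I) + finrank K (B ⧸ J) := by
  rw [(ffd_q_finrank hres (I * J) (mul_ne_zero hI hJ)).2, (ffd_q_finrank hres I hI).2,
    (ffd_q_finrank hres J hJ).2, normalizedFactors_mul hI hJ, Multiset.card_add]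

/-- monotonicity: `I ≤ J` implies `dim B / J ≤ dim B / I`. -/
theorem ffd_q_finrank_le
    (hres : ∀ P : Ideal B, P.IsMaximal → P ≠ ⊥ → Function.Surjective (algebraMap K (B ⧸ P)))
    {I J : Ideal B} (hI : I ≠ ⊥) (hIJ : I ≤ J) :
    finrank K (B ⧸ J) ≤ finrank K (B ⧸ I) := by
  obtain ⟨J', rfl⟩ := Ideal.dvd_iff_le.mpr hIJ
  have hJ : J ≠ ⊥ := fun h => hI (by rw [h, Ideal.bot_mul])
  have hJ' : J' ≠ ⊥ := fun h => hI (by rw [h, Ideal.mul_bot])
  rw [ffd_q_finrank_mul hres J J' hJ hJ']
  exact Nat.le_add_right _ _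

/-- an ideal containing `I` with the same (finite) codimension equals `I`. -/
theorem ffd_q_eq_of_finrank_eq
    (hres : ∀ P : Ideal B, P.IsMaximal → P ≠ ⊥ → Function.Surjective (algebraMap K (B ⧸ P)))
    {I J : Ideal B} (hI : I ≠ ⊥) (hIJ : I ≤ J)
    (h : finrank K (B ⧸ I) ≤ finrank K (B ⧸ J)) : I = J := by
  obtain ⟨J', rfl⟩ := Ideal.dvd_iff_le.mpr hIJ
  have hJ : J ≠ ⊥ := fun h => hI (by rw [h, Ideal.bot_mul])
  have hJ' : J' ≠ ⊥ := fun h => hI (by rw [h, Ideal.mul_bot])
  rw [ffd_q_finrank_mul hres J J' hJ hJ', (ffd_q_finrank hres J' hJ').2] at h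
  have h0 : Multiset.card (normalizedFactors J') = 0 := by omega
  rw [Multiset.card_eq_zero, normalizedFactors_eq_zero_iff hJ'] at h0
  rw [Ideal.isUnit_iff.mp h0, Ideal.mul_top]

end Fermat.Agent.FF
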