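/-
Project FF, cell [DICT], part (I): ideals of a Dedekind chart `B ⊆ F` of a function field `F / K`
(`K` algebraically closed) versus effective divisors supported on the finite places of the chart.
Prefix `ffd_`.

Context: `K` algebraically closed, `F / K` a function field (`x : F` with `F` algebraic over
`K(x)`), `B` a Dedekind `K`-subalgebra of `F` with fraction field `F`.  A place `v` is *finite*
(for `B`) when `B ⊆ O_v`.

* `ffd_res_surjective`  : the residue fields of `B` are `K`;
* `ffd_ord_eq_count`    : `ord_{v_Q} b = ` multiplicity of `Q` in `(b)`;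
* `ffd_div I`           : the divisor of an ideal; `ffd_div_mul`, `ffd_div_span_singleton`;
* `ffd_mem_iff`         : `a ∈ I ↔ ∀ v finite, ffd_div I v ≤ ord_v a`;
* `ffd_le_iff`          : `I ≤ J ↔ ffd_div J ≤ ffd_div I`;
* `ffd_finrank_quot`    : `dim_K B / I = deg (ffd_div I)`;
* `ffd_ideal D`         : the ideal of an effective divisor; `ffd_div_ideal`, `ffd_ideal_div`.
-/
import Mathlib
import Fermat.Agent.S24.Hurwitz.IntegralClosure
import Fermat.Agent.JT3.Riemann.Main
import Fermat.Agent.FF.Dict.Quot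

set_option autoImplicit false
set_option linter.unusedSectionVars false

namespace Fermat.Agent.FF

open AlgebraicCurve IntermediateField IsDedekindDomain UniqueFactorizationMonoid WithZero
open Fermat.Agent.S24 Fermat.Agent.JT3

open scoped Classical in
section

universe u v w
variable {K : Type u} {F : Type v} [Field K] [Field F] [Algebra K F]
variable (B : Type w) [CommRing B] [IsDedekindDomain B] [Algebra K B] [Algebra B F]
  [IsScalarTower K B F] [IsFractionRing B F]

/-- `v` is a finite place for the chart `B`: `B ⊆ O_v`. -/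
abbrev ffd_IsFin (v : Place K F) : Prop := ∀ b : B, algebraMap B F b ∈ v.toValuationSubring

theorem ffd_isFin_placeOfPrime (Q : HeightOneSpectrum B) :
    ffd_IsFin B (hw_placeOfPrime (K := K) (F := F) B Q) :=
  hw_placeOfPrime_algebraMap_mem B Q

variable {B}

/-- membership in a prime in terms of the order at its place. -/
theorem ffd_mem_prime_iff (Q : HeightOneSpectrum B) (b : B) (hb : b ≠ 0) :
    b ∈ Q.asIdeal ↔ 0 < (hw_placeOfPrime (K := K) (F := F) B Q).ord (algebraMap B F b) := by
  have hb' : algebraMap B F b ≠ 0 := by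
    rw [Ne, map_eq_zero_iff _ (IsFractionRing.injective B F)]; exact hb
  rw [hw_placeOfPrime_ord, ← Q.valuation_lt_one_iff_mem (K := F)]
  have h0 : Q.valuation F (algebraMap B F b) ≠ 0 := (Valuation.ne_zero_iff _).mpr hb'
  rw [neg_pos, ← log_lt_log h0 one_ne_zero, log_one]

/-- the residue fields of `B` are `K`. -/
theorem ffd_res_surjective [IsAlgClosed K] (x : F) [Algebra.IsAlgebraic K⟮x⟯ F]
    (Q : HeightOneSpectrum B) : Function.Surjective (algebraMap K (B ⧸ Q.asIdeal)) := by
  intro y
  obtain ⟨b, rfl⟩ := Ideal.Quotient.mk_surjective y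
  obtain ⟨c, hc⟩ := hw_exists_const x (hw_placeOfPrime (K := K) (F := F) B Q)
    (hw_placeOfPrime_algebraMap_mem B Q b)
  refine ⟨c, ?_⟩
  rw [← Ideal.Quotient.mk_algebraMap, Ideal.Quotient.eq]
  rcases hc with hc | hc
  · have : algebraMap K B c - b = 0 := by
      apply IsFractionRing.injective B F
      rw [map_sub, map_zero, ← IsScalarTower.algebraMap_apply, hc, sub_self]
    rw [this]; exact zero_mem _
  · by_cases h0 : algebraMap K B c - b = 0
    · rw [h0]; exact zero_mem _
    rw [ffd_mem_prime_iff (K := K) (F := F) Q _ h0, map_sub, ← IsScalarTower.algebraMap_apply,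
      ← neg_sub, hw_ord_neg]
    exact hc

theorem ffd_res_surjective' [IsAlgClosed K] (x : F) [Algebra.IsAlgebraic K⟮x⟯ F]
    (P : Ideal B) (hP : P.IsMaximal) (hP0 : P ≠ ⊥) :
    Function.Surjective (algebraMap K (B ⧸ P)) :=
  ffd_res_surjective (K := K) (F := F) x ⟨P, hP.isPrime, hP0⟩

/-- the order of `b ∈ B` at the place of `Q` is the multiplicity of `Q` in `(b)`. -/
theorem ffd_ord_eq_count (Q : HeightOneSpectrum B) {b : B} (hb : b ≠ 0) :
    (hw_placeOfPrime (K := K) (F := F) B Q).ord (algebraMap B F b) =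
      (Multiset.count Q.asIdeal (normalizedFactors (Ideal.span {b})) : ℤ) := by
  rw [hw_placeOfPrime_ord, HeightOneSpectrum.valuation_of_algebraMap,
    HeightOneSpectrum.intValuation_if_neg _ hb, log_exp, neg_neg,
    Ideal.count_associates_factors_eq (by simpa using hb) Q.isPrime Q.ne_bot]

/-! ### The divisor of an ideal -/

/-- multiplicity of the prime of a finite place in `I` (`0` at the infinite places). -/
noncomputable def ffd_mult (I : Ideal B) (v : Place K F) : ℤ :=
  if h : ffd_IsFin B v then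
    (Multiset.count (hw_primeOfPlace v h).asIdeal (normalizedFactors I) : ℤ) else 0

theorem ffd_mult_placeOfPrime (I : Ideal B) (Q : HeightOneSpectrum B) :
    ffd_mult I (hw_placeOfPrime (K := K) (F := F) B Q) =
      (Multiset.count Q.asIdeal (normalizedFactors I) : ℤ) := by
  rw [ffd_mult, dif_pos (ffd_isFin_placeOfPrime B Q)]
  have := hw_primeOfPlace_placeOfPrime (K := K) (F := F) Q
  rw [this]

theorem ffd_mult_finite_support (I : Ideal B) :
    {v : Place K F | ffd_mult I v ≠ 0}.Finite := by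
  have hfin : {Q : HeightOneSpectrum B | Q.asIdeal ∈ normalizedFactors I}.Finite := by
    apply Set.Finite.of_finite_image (f := fun Q : HeightOneSpectrum B => Q.asIdeal)
    · apply Set.Finite.subset (normalizedFactors I).toFinset.finite_toSet
      rintro _ ⟨Q, hQ, rfl⟩
      exact Finset.mem_coe.mpr (Multiset.mem_toFinset.mpr hQ)
    · intro Q _ Q' _ h
      exact HeightOneSpectrum.ext h
  apply Set.Finite.subset (hfin.image (hw_placeOfPrime (K := K) (F := F) B))
  intro v hv
  rw [Set.mem_ofPred_eq, ffd_mult] at hv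
  by_cases h : ffd_IsFin B v
  · rw [dif_pos h] at hv
    refine ⟨hw_primeOfPlace v h, ?_, hw_placeOfPrime_primeOfPlace v h⟩
    rw [Set.mem_ofPred_eq, ← Multiset.count_pos]
    exact Nat.pos_of_ne_zero (fun h0 => hv (by rw [h0]; rfl))
  · rw [dif_neg h] at hv
    exact absurd rfl hv

/-- the divisor of an ideal of the chart `B`. -/
noncomputable def ffd_div (I : Ideal B) : Divisor K F :=
  Finsupp.ofSupportFinite (ffd_mult I) (ffd_mult_finite_support I)

theorem ffd_div_apply (I : Ideal B) (v : Place K F) : ffd_div I v = ffd_mult I v := rfl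

theorem ffd_div_placeOfPrime (I : Ideal B) (Q : HeightOneSpectrum B) :
    ffd_div I (hw_placeOfPrime (K := K) (F := F) B Q) =
      (Multiset.count Q.asIdeal (normalizedFactors I) : ℤ) :=
  ffd_mult_placeOfPrime I Q

theorem ffd_div_of_isFin (I : Ideal B) {v : Place K F} (h : ffd_IsFin B v) :
    ffd_div I v = (Multiset.count (hw_primeOfPlace v h).asIdeal (normalizedFactors I) : ℤ) := by
  rw [ffd_div_apply, ffd_mult, dif_pos h]

theorem ffd_div_of_not_isFin (I : Ideal B) {v : Place K F} (h : ¬ ffd_IsFin B v) :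
    ffd_div I v = 0 := by
  rw [ffd_div_apply, ffd_mult, dif_neg h]

theorem ffd_div_nonneg (I : Ideal B) : 0 ≤ (ffd_div I : Divisor K F) := by
  intro v
  by_cases h : ffd_IsFin B v
  · rw [ffd_div_of_isFin I h]; exact Int.natCast_nonneg _
  · rw [ffd_div_of_not_isFin I h]; rfl

theorem ffd_div_mul {I J : Ideal B} (hI : I ≠ ⊥) (hJ : J ≠ ⊥) :
    (ffd_div (I * J) : Divisor K F) = ffd_div I + ffd_div J := by
  ext v
  rw [Finsupp.add_apply]
  by_cases h : ffd_IsFin B v
  · rw [ffd_div_of_isFin _ h, ffd_div_of_isFin _ h, ffd_div_of_isFin _ h,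
      normalizedFactors_mul hI hJ, Multiset.count_add, Nat.cast_add]
  · rw [ffd_div_of_not_isFin _ h, ffd_div_of_not_isFin _ h, ffd_div_of_not_isFin _ h, add_zero]

theorem ffd_div_top : (ffd_div (⊤ : Ideal B) : Divisor K F) = 0 := by
  ext v
  have h0 : normalizedFactors (⊤ : Ideal B) = 0 := by
    rw [← Ideal.one_eq_top]; exact normalizedFactors_one
  by_cases h : ffd_IsFin B v
  · rw [ffd_div_of_isFin _ h, h0]; simp
  · rw [ffd_div_of_not_isFin _ h]; rfl

theorem ffd_div_prime (Q : HeightOneSpectrum B) :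
    (ffd_div Q.asIdeal : Divisor K F) = Finsupp.single (hw_placeOfPrime (K := K) (F := F) B Q) 1 := by
  have hP : Prime Q.asIdeal := Ideal.prime_of_isPrime Q.ne_bot Q.isPrime
  have hnf : normalizedFactors Q.asIdeal = {Q.asIdeal} := by
    rw [normalizedFactors_irreducible hP.irreducible, normalize_eq]
  ext v
  by_cases h : ffd_IsFin B v
  · rw [ffd_div_of_isFin _ h, hnf, Multiset.count_singleton]
    by_cases hv : v = hw_placeOfPrime (K := K) (F := F) B Q
    · subst hv
      rw [hw_primeOfPlace_placeOfPrime, if_pos rfl, Finsupp.single_eq_same]; rfl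
    · rw [Finsupp.single_eq_of_ne' (Ne.symm hv)] 
      rw [if_neg]
      · rfl
      · intro heq
        apply hv
        rw [← hw_placeOfPrime_primeOfPlace v h]
        congr 1
        exact HeightOneSpectrum.ext heq
  · rw [ffd_div_of_not_isFin _ h]
    rw [Finsupp.single_eq_of_ne']
    intro hv
    apply h
    rw [← hv]; exact ffd_isFin_placeOfPrime B Q

theorem ffd_div_span_singleton {b : B} (hb : b ≠ 0) {v : Place K F} (h : ffd_IsFin B v) :
    (ffd_div (Ideal.span {b}) : Divisor K F) v = v.ord (algebraMap B F b) := by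
  rw [ffd_div_of_isFin _ h, ← ffd_ord_eq_count (K := K) (F := F) _ hb,
    hw_placeOfPrime_primeOfPlace]

theorem ffd_div_pow {I : Ideal B} (hI : I ≠ ⊥) (n : ℕ) :
    (ffd_div (I ^ n) : Divisor K F) = n • ffd_div I := by
  induction n with
  | zero => rw [pow_zero, Ideal.one_eq_top, ffd_div_top, zero_smul]
  | succ n ih => rw [pow_succ, ffd_div_mul (pow_ne_zero n hI) hI, ih, succ_nsmul]

theorem ffd_div_prod {ι : Type*} (s : Finset ι) (f : ι → Ideal B) (hf : ∀ i ∈ s, f i ≠ ⊥) :
    (ffd_div (∏ i ∈ s, f i) : Divisor K F) = ∑ i ∈ s, ffd_div (f i) := by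
  induction s using Finset.induction_on with
  | empty => rw [Finset.prod_empty, Finset.sum_empty, Ideal.one_eq_top, ffd_div_top]
  | insert a s ha ih =>
    rw [Finset.prod_insert ha, Finset.sum_insert ha,
      ffd_div_mul (hf a (Finset.mem_insert_self a s))
        (Finset.prod_ne_zero_iff.mpr fun i hi => hf i (Finset.mem_insert_of_mem hi)),
      ih fun i hi => hf i (Finset.mem_insert_of_mem hi)]

/-! ### Degree and dimension -/

section degree

variable [IsAlgClosed K]

theorem ffd_degree_div (x : F) [Algebra.IsAlgebraic K⟮x⟯ F] (I : Ideal B) (hI : I ≠ ⊥) :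
    Divisor.degree (ffd_div I : Divisor K F) = (Multiset.card (normalizedFactors I) : ℤ) := by
  induction I using UniqueFactorizationMonoid.induction_on_prime with
  | h₁ => exact absurd rfl hI
  | h₂ J hJ =>
    have hJtop : J = ⊤ := Ideal.isUnit_iff.mp hJ
    subst hJtop
    have h0 : normalizedFactors (⊤ : Ideal B) = 0 := by
      rw [← Ideal.one_eq_top]; exact normalizedFactors_one
    rw [ffd_div_top, map_zero, h0, Multiset.card_zero, Nat.cast_zero]
  | h₃ J P hJ hP ih =>
    have hJ' : J ≠ ⊥ := hJ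
    have hPne : P ≠ ⊥ := hP.ne_zero
    have hPprime : P.IsPrime := Ideal.isPrime_of_prime hP
    rw [ffd_div_mul hPne hJ', map_add, ih hJ', normalizedFactors_mul hPne hJ',
      normalizedFactors_irreducible hP.irreducible, Multiset.card_add, Multiset.card_singleton]
    have := ffd_div_prime (K := K) (F := F) (⟨P, hPprime, hPne⟩ : HeightOneSpectrum B)
    rw [this, Divisor.degree_single, hw_deg_eq_one x]
    push_cast; ring

/-- **dimension = degree**: `dim_K B / I = deg (div I)`. -/
theorem ffd_finrank_quot (x : F) [Algebra.IsAlgebraic K⟮x⟯ F] (I : Ideal B) (hI : I ≠ ⊥) :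
    Module.Finite K (B ⧸ I) ∧
      (Module.finrank K (B ⧸ I) : ℤ) = Divisor.degree (ffd_div I : Divisor K F) := by
  obtain ⟨h1, h2⟩ := ffd_q_finrank (K := K) (ffd_res_surjective' (K := K) (F := F) x) I hI
  exact ⟨h1, by rw [h2, ffd_degree_div x I hI]⟩

end degree

/-! ### Membership and order -/

theorem ffd_count_eq_zero_of_not_prime (I : Ideal B) {P : Ideal B}
    (hP : ¬ (P.IsPrime ∧ P ≠ ⊥)) : Multiset.count P (normalizedFactors I) = 0 := by
  rw [Multiset.count_eq_zero]
  intro hmem
  apply hP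
  have := prime_of_normalized_factor P hmem
  exact ⟨Ideal.isPrime_of_prime this, this.ne_zero⟩

theorem ffd_le_iff {I J : Ideal B} (hI : I ≠ ⊥) (hJ : J ≠ ⊥) :
    I ≤ J ↔ (ffd_div J : Divisor K F) ≤ ffd_div I := by
  rw [← Ideal.dvd_iff_le, dvd_iff_normalizedFactors_le_normalizedFactors hJ hI,
    Multiset.le_iff_count]
  constructor
  · intro h v
    by_cases hv : ffd_IsFin B v
    · rw [ffd_div_of_isFin _ hv, ffd_div_of_isFin _ hv]
      exact_mod_cast h _
    · rw [ffd_div_of_not_isFin _ hv, ffd_div_of_not_isFin _ hv]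
  · intro h P
    by_cases hP : P.IsPrime ∧ P ≠ ⊥
    · have := h (hw_placeOfPrime (K := K) (F := F) B ⟨P, hP.1, hP.2⟩)
      rw [ffd_div_placeOfPrime, ffd_div_placeOfPrime] at this
      exact_mod_cast this
    · rw [ffd_count_eq_zero_of_not_prime J hP]; exact Nat.zero_le _

theorem ffd_div_injective {I J : Ideal B} (hI : I ≠ ⊥) (hJ : J ≠ ⊥)
    (h : (ffd_div I : Divisor K F) = ffd_div J) : I = J :=
  le_antisymm ((ffd_le_iff hI hJ).mpr h.ge) ((ffd_le_iff hJ hI).mpr h.le)

/-- **membership**: `a ∈ I ↔ ord_v a ≥ (div I) v` at all finite places. -/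
theorem ffd_mem_iff {I : Ideal B} (hI : I ≠ ⊥) {a : B} (ha : a ≠ 0) :
    a ∈ I ↔ ∀ v : Place K F, ffd_IsFin B v → ffd_div I v ≤ v.ord (algebraMap B F a) := by
  have ha' : Ideal.span {a} ≠ ⊥ := by
    rw [Ne, Ideal.span_singleton_eq_bot]; exact ha
  rw [← Ideal.span_singleton_le_iff_mem, ffd_le_iff (K := K) (F := F) ha' hI]
  constructor
  · intro h v hv
    have := h v
    rwa [ffd_div_span_singleton ha hv] at this
  · intro h v
    by_cases hv : ffd_IsFin B v
    · rw [ffd_div_span_singleton ha hv]; exact h v hv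
    · rw [ffd_div_of_not_isFin _ hv, ffd_div_of_not_isFin _ hv]

/-! ### The ideal of an effective divisor -/

variable (B) in
/-- the ideal of `B` attached to a divisor (meaningful for effective divisors supported at the
finite places of `B`). -/
noncomputable def ffd_ideal (D : Divisor K F) : Ideal B :=
  ∏ v ∈ D.support,
    (if h : ffd_IsFin B v then (hw_primeOfPlace v h).asIdeal ^ (D v).toNat else ⊤)

theorem ffd_ideal_factor_ne_bot (D : Divisor K F) (v : Place K F) :
    (if h : ffd_IsFin B v then (hw_primeOfPlace v h).asIdeal ^ (D v).toNat else (⊤ : Ideal B)) ≠ ⊥ := by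
  by_cases h : ffd_IsFin B v
  · rw [dif_pos h]; exact pow_ne_zero _ (hw_primeOfPlace v h).ne_bot
  · rw [dif_neg h]; exact top_ne_bot

theorem ffd_ideal_ne_bot (D : Divisor K F) : ffd_ideal B D ≠ ⊥ := by
  rw [ffd_ideal]
  exact Finset.prod_ne_zero_iff.mpr fun v _ => ffd_ideal_factor_ne_bot D v

theorem ffd_ideal_zero : ffd_ideal B (0 : Divisor K F) = ⊤ := by
  rw [ffd_ideal, Finsupp.support_zero, Finset.prod_empty, Ideal.one_eq_top]

/-- `div (ideal D) = D` for an effective divisor supported at the finite places. -/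
theorem ffd_div_ideal {D : Divisor K F} (hD : 0 ≤ D) (hfin : ∀ v, D v ≠ 0 → ffd_IsFin B v) :
    (ffd_div (ffd_ideal B D) : Divisor K F) = D := by
  rw [ffd_ideal, ffd_div_prod _ _ fun v _ => ffd_ideal_factor_ne_bot D v]
  conv_rhs => rw [← Finsupp.sum_single D]
  rw [Finsupp.sum]
  refine Finset.sum_congr rfl fun v hv => ?_
  have hv0 : D v ≠ 0 := Finsupp.mem_support_iff.mp hv
  have h := hfin v hv0
  rw [dif_pos h, ffd_div_pow (hw_primeOfPlace v h).ne_bot, ffd_div_prime,
    hw_placeOfPrime_primeOfPlace, Finsupp.smul_single, nsmul_one]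
  congr 1
  exact Int.toNat_of_nonneg (hD v)

theorem ffd_ideal_div {I : Ideal B} (hI : I ≠ ⊥) :
    ffd_ideal B (ffd_div I : Divisor K F) = I := by
  apply ffd_div_injective (K := K) (F := F) (ffd_ideal_ne_bot _) hI
  apply ffd_div_ideal (ffd_div_nonneg I)
  intro v hv
  by_contra h
  exact hv (ffd_div_of_not_isFin I h)

theorem ffd_mem_ideal_iff {D : Divisor K F} (hD : 0 ≤ D) (hfin : ∀ v, D v ≠ 0 → ffd_IsFin B v)
    {a : B} (ha : a ≠ 0) :
    a ∈ ffd_ideal B D ↔ ∀ v : Place K F, ffd_IsFin B v → D v ≤ v.ord (algebraMap B F a) := by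
  rw [ffd_mem_iff (K := K) (F := F) (ffd_ideal_ne_bot D) ha, ffd_div_ideal hD hfin]

theorem ffd_ideal_add {D E : Divisor K F} (hD : 0 ≤ D) (hDfin : ∀ v, D v ≠ 0 → ffd_IsFin B v)
    (hE : 0 ≤ E) (hEfin : ∀ v, E v ≠ 0 → ffd_IsFin B v) :
    ffd_ideal B (D + E) = ffd_ideal B D * ffd_ideal B E := by
  apply ffd_div_injective (K := K) (F := F) (ffd_ideal_ne_bot _)
    (mul_ne_zero (ffd_ideal_ne_bot _) (ffd_ideal_ne_bot _))
  rw [ffd_div_mul (ffd_ideal_ne_bot _) (ffd_ideal_ne_bot _), ffd_div_ideal hD hDfin,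
    ffd_div_ideal hE hEfin, ffd_div_ideal (add_nonneg hD hE)]
  intro v hv
  by_cases h : D v ≠ 0
  · exact hDfin v h
  · push Not at h
    rw [Finsupp.add_apply, h, zero_add] at hv
    exact hEfin v hv

theorem ffd_ideal_le_iff {D E : Divisor K F} (hD : 0 ≤ D) (hDfin : ∀ v, D v ≠ 0 → ffd_IsFin B v)
    (hE : 0 ≤ E) (hEfin : ∀ v, E v ≠ 0 → ffd_IsFin B v) :
    ffd_ideal B D ≤ ffd_ideal B E ↔ E ≤ D := by
  rw [ffd_le_iff (K := K) (F := F) (ffd_ideal_ne_bot _) (ffd_ideal_ne_bot _),
    ffd_div_ideal hD hDfin, ffd_div_ideal hE hEfin]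

theorem ffd_finrank_quot_ideal [IsAlgClosed K] (x : F) [Algebra.IsAlgebraic K⟮x⟯ F]
    {D : Divisor K F} (hD : 0 ≤ D) (hfin : ∀ v, D v ≠ 0 → ffd_IsFin B v) :
    Module.Finite K (B ⧸ ffd_ideal B D) ∧
      (Module.finrank K (B ⧸ ffd_ideal B D) : ℤ) = Divisor.degree D := by
  have := ffd_finrank_quot (K := K) (F := F) x (ffd_ideal B D) (ffd_ideal_ne_bot D)
  rwa [ffd_div_ideal hD hfin] at this

end

end Fermat.Agent.FF
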