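/-
Project FF, cell [DICT], part (L): a Dedekind chart `B` of a separating generator `x` of a function
field `F / K` (`B ≅` the integral closure of `K[x]` in `F`, stated abstractly so that it applies to
both fibres of a model), its pole filtration `Λ_m = L(m·(x)_∞)`, Riemann–Roch spaces in ideal form,
and functions of exact pole order.  Prefix `ffd_`.

* `ffd_IsChart K B x`      : `B ⊆ F` is the ring of functions regular wherever `x` is;
  `ffd_isChart_chart`      : the integral closure of `K[x]` is such a chart;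
* `ffd_Tinf hx`            : the pole divisor of `x` ("the cusps"); `ffd_degree_Tinf`;
* `ffd_Lam hx B m`         : `Λ_m ⊆ B`; `ffd_LamEquiv : Λ_m ≃ L(m T∞)`; `ffd_exists_mem_Lam`;
* `ffd_mem_Lam_inf_ideal_iff`, `ffd_LamIdealEquiv` : `Λ_m ∩ I_D ≃ L(m T∞ - D)`;
* `ffd_Lam_add_ideal`      : Riemann's theorem in ideal form: `B = Λ_m + I_D` for `m n ≥ c + deg D`;
* `ffd_exact_*`            : functions of exact pole order `m` at the cusps.
-/
import Mathlib
import Fermat.Agent.FF.Dict.Ideal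

set_option autoImplicit false
set_option linter.unusedSectionVars false
set_option linter.unusedVariables false

namespace Fermat.Agent.FF

open AlgebraicCurve IntermediateField IsDedekindDomain UniqueFactorizationMonoid WithZero
open Fermat.Agent.S24 Fermat.Agent.JT3

universe u v w
variable {K : Type u} {F : Type v} [Field K] [Field F] [Algebra K F]

/-! ### Charts -/

section chartdef

variable (K) (B : Type w) [CommRing B] [Algebra K B] [Algebra B F] [IsScalarTower K B F]

/-- `B` is (a model of) the chart of `x`: its image in `F` consists of the functions that are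
regular at every place at which `x` is regular. -/
def ffd_IsChart (x : F) : Prop :=
  ∀ f : F, f ∈ (algebraMap B F).range ↔
    ∀ v : Place K F, x ∈ v.toValuationSubring → f ∈ v.toValuationSubring

variable {K B}

theorem ffd_IsChart.isFin_iff {x : F} (hB : ffd_IsChart K B x) (v : Place K F) :
    ffd_IsFin B v ↔ x ∈ v.toValuationSubring := by
  constructor
  · intro h
    obtain ⟨b, hb⟩ := (hB x).mpr fun _ hw => hw
    rw [← hb]; exact h b
  · intro h b
    exact (hB _).mp ⟨b, rfl⟩ v h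

theorem ffd_IsChart.exists_eq {x : F} (hB : ffd_IsChart K B x) :
    ∃ b : B, algebraMap B F b = x := (hB x).mpr fun _ hw => hw

end chartdef

/-- the integral closure of `K[x]` in `F`. -/
abbrev ffd_chart (K : Type u) {F : Type v} [Field K] [Field F] [Algebra K F] (x : F) :
    Subalgebra (Algebra.adjoin K ({x} : Set F)) F :=
  integralClosure (Algebra.adjoin K ({x} : Set F)) F

/-- the integral closure of `K[x]` is a chart of `x`. -/
theorem ffd_isChart_chart {x : F} (hx : rt_IsSepGen K x) : ffd_IsChart K (ffd_chart K x) x := by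
  intro f
  constructor
  · rintro ⟨b, rfl⟩ v hv
    exact hw_coe_mem_of_mem_integralClosure x v hv b
  · intro h
    exact ⟨⟨f, rt_isIntegral_of_forall_mem hx f h⟩, rfl⟩

/-! ### The pole divisor of `x` -/

section sep

variable [IsAlgClosed K] {x : F} (hx : rt_IsSepGen K x)

include hx

theorem ffd_x_ne_zero : x ≠ 0 := by
  rintro rfl
  exact hx.1 isAlgebraic_zero

/-- the pole divisor of `x` ("the cusps"). -/
noncomputable def ffd_Tinf : Divisor K F := rt_poleDiv hx x

theorem ffd_Tinf_apply (v : Place K F) : ffd_Tinf hx v = max (-v.ord x) 0 := rt_poleDiv_apply hx x v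

theorem ffd_Tinf_nonneg : 0 ≤ ffd_Tinf hx := rt_poleDiv_nonneg hx x

theorem ffd_Tinf_eq_zero_iff (v : Place K F) : ffd_Tinf hx v = 0 ↔ x ∈ v.toValuationSubring := by
  rw [ffd_Tinf_apply, hw_mem_iff_ord_nonneg v (ffd_x_ne_zero hx)]
  constructor
  · intro h
    have := le_max_left (-v.ord x) 0
    omega
  · intro h
    exact max_eq_right (by omega)

theorem ffd_Tinf_pos_iff (v : Place K F) : 0 < ffd_Tinf hx v ↔ x ∉ v.toValuationSubring := by
  rw [← ffd_Tinf_eq_zero_iff hx v]
  have := ffd_Tinf_nonneg hx v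
  constructor
  · intro h h0; rw [h0] at h; exact lt_irrefl _ h
  · intro h; exact lt_of_le_of_ne this (Ne.symm h)

theorem ffd_Tinf_eq_neg_ord {v : Place K F} (hv : x ∉ v.toValuationSubring) :
    ffd_Tinf hx v = -v.ord x := by
  rw [ffd_Tinf_apply]
  rw [hw_mem_iff_ord_nonneg v (ffd_x_ne_zero hx)] at hv
  exact max_eq_left (by omega)

theorem ffd_degree_Tinf : Divisor.degree (ffd_Tinf hx) = (Module.finrank K⟮x⟯ F : ℤ) :=
  rt_degree_poleDiv hx hx.1

end sep

/-! ### The pole filtration `Λ_m` -/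

section lam

variable [IsAlgClosed K] {x : F} (hx : rt_IsSepGen K x)
variable (B : Type w) [CommRing B] [IsDedekindDomain B] [Algebra K B] [Algebra B F]
  [IsScalarTower K B F] [IsFractionRing B F]

/-- the `K`-linear inclusion of the chart in `F`. -/
def ffd_incl (K : Type u) {F : Type v} [Field K] [Field F] [Algebra K F] (B : Type w) [CommRing B]
    [Algebra K B] [Algebra B F] [IsScalarTower K B F] : B →ₗ[K] F :=
  (IsScalarTower.toAlgHom K B F).toLinearMap

@[simp] theorem ffd_incl_apply (a : B) : ffd_incl K B a = algebraMap B F a := rfl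

theorem ffd_incl_injective : Function.Injective (ffd_incl K (F := F) B) :=
  IsFractionRing.injective B F

/-- `Λ_m = L(m·(x)_∞)` as a `K`-subspace of the chart `B`. -/
noncomputable def ffd_Lam (m : ℤ) : Submodule K B :=
  (riemannRochSpace (m • ffd_Tinf hx)).comap (ffd_incl K B)

variable {B}

theorem ffd_mem_Lam (m : ℤ) (a : B) :
    a ∈ ffd_Lam hx B m ↔ algebraMap B F a ∈ riemannRochSpace (m • ffd_Tinf hx) := Iff.rfl

theorem ffd_map_ne_zero {a : B} (ha : a ≠ 0) : algebraMap B F a ≠ 0 := by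
  rw [Ne, map_eq_zero_iff _ (IsFractionRing.injective B F)]; exact ha

theorem ffd_mem_Lam_iff (m : ℤ) {a : B} (ha : a ≠ 0) :
    a ∈ ffd_Lam hx B m ↔ ∀ v : Place K F, -(m * ffd_Tinf hx v) ≤ v.ord (algebraMap B F a) := by
  rw [ffd_mem_Lam, rt_mem_L_iff (ffd_map_ne_zero ha)]
  refine forall_congr' fun v => ?_
  rw [Finsupp.smul_apply, smul_eq_mul]

theorem ffd_Lam_mono {m m' : ℤ} (h : m ≤ m') : ffd_Lam hx B m ≤ ffd_Lam hx B m' := by
  intro a ha
  rw [ffd_mem_Lam] at ha ⊢
  refine rt_L_mono ?_ ha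
  intro v
  rw [Finsupp.smul_apply, Finsupp.smul_apply, smul_eq_mul, smul_eq_mul]
  exact mul_le_mul_of_nonneg_right h (ffd_Tinf_nonneg hx v)

variable (hB : ffd_IsChart K B x)

include hB

/-- `L(m·(x)_∞)` consists of elements of the chart. -/
theorem ffd_L_le_chart (m : ℤ) {f : F} (hf : f ∈ riemannRochSpace (m • ffd_Tinf hx)) :
    ∃ b : B, algebraMap B F b = f := by
  apply (hB f).mpr
  intro v hv
  rcases eq_or_ne f 0 with rfl | hf0
  · exact zero_mem _
  rw [hw_mem_iff_ord_nonneg v hf0]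
  have := (rt_mem_L_iff hf0).mp hf v
  rw [Finsupp.smul_apply, (ffd_Tinf_eq_zero_iff hx v).mpr hv, smul_zero, neg_zero] at this
  exact this

/-- `Λ_m ≃ L(m·(x)_∞)`. -/
noncomputable def ffd_LamEquiv (m : ℤ) :
    ↥(ffd_Lam hx B m) ≃ₗ[K] ↥(riemannRochSpace (m • ffd_Tinf hx)) :=
  LinearEquiv.ofBijective
    ((ffd_incl K B).restrict (p := ffd_Lam hx B m) (q := riemannRochSpace (m • ffd_Tinf hx))
      (fun _ ha => ha))
    ⟨fun _ _ h => Subtype.ext (ffd_incl_injective B
        (congrArg (fun t : ↥(riemannRochSpace (m • ffd_Tinf hx)) => (t : F)) h)),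
      fun f => by
        obtain ⟨b, hb⟩ := ffd_L_le_chart hx hB m f.2
        exact ⟨⟨b, by rw [ffd_mem_Lam, hb]; exact f.2⟩, Subtype.ext hb⟩⟩

theorem ffd_LamEquiv_apply (m : ℤ) (a : ↥(ffd_Lam hx B m)) :
    ((ffd_LamEquiv hx hB m a : ↥(riemannRochSpace (m • ffd_Tinf hx))) : F) =
      algebraMap B F (a : B) :=
  rfl

theorem ffd_finrank_Lam (m : ℤ) :
    Module.finrank K ↥(ffd_Lam hx B m) =
      Module.finrank K ↥(riemannRochSpace (m • ffd_Tinf hx)) :=
  (ffd_LamEquiv hx hB m).finrank_eq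

theorem ffd_finite_Lam (m : ℤ) : Module.Finite K ↥(ffd_Lam hx B m) := by
  have := rt_L_finite hx (m • ffd_Tinf hx)
  exact Module.Finite.equiv (ffd_LamEquiv hx hB m).symm

/-- every element of the chart lies in some `Λ_m`. -/
theorem ffd_exists_mem_Lam (a : B) : ∃ m : ℕ, a ∈ ffd_Lam hx B (m : ℤ) := by
  classical
  rcases eq_or_ne a 0 with rfl | ha
  · exact ⟨0, zero_mem _⟩
  have ha' : algebraMap B F a ≠ 0 := ffd_map_ne_zero ha
  set S := (rt_finite_poles hx (algebraMap B F a)).toFinset with hS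
  refine ⟨∑ v ∈ S, (-v.ord (algebraMap B F a)).toNat, ?_⟩
  rw [ffd_mem_Lam_iff hx _ ha]
  intro v
  have hT := ffd_Tinf_nonneg hx v
  by_cases hv : v.ord (algebraMap B F a) < 0
  · have hvS : v ∈ S := by rw [hS, Set.Finite.mem_toFinset]; exact hv
    have h1 : (-v.ord (algebraMap B F a)).toNat ≤ ∑ w ∈ S, (-w.ord (algebraMap B F a)).toNat :=
      Finset.single_le_sum (f := fun w => (-w.ord (algebraMap B F a)).toNat)
        (fun _ _ => Nat.zero_le _) hvS
    have h2 : ((-v.ord (algebraMap B F a)).toNat : ℤ) = -v.ord (algebraMap B F a) :=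
      Int.toNat_of_nonneg (by omega)
    have hinf : x ∉ v.toValuationSubring := by
      intro hxv
      have := (hB.isFin_iff v).mpr hxv a
      rw [hw_mem_iff_ord_nonneg v ha'] at this
      omega
    have h3 : 1 ≤ ffd_Tinf hx v := (ffd_Tinf_pos_iff hx v).mpr hinf
    have h4 : -v.ord (algebraMap B F a) ≤
        ((∑ w ∈ S, (-w.ord (algebraMap B F a)).toNat : ℕ) : ℤ) := by
      rw [← h2]; exact_mod_cast h1
    nlinarith
  · push Not at hv
    have : (0 : ℤ) ≤ ((∑ w ∈ S, (-w.ord (algebraMap B F a)).toNat : ℕ) : ℤ) * ffd_Tinf hx v :=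
      mul_nonneg (Int.natCast_nonneg _) hT
    omega

end lam

/-! ### Riemann–Roch spaces in ideal form -/

section riemann

variable [IsAlgClosed K] {x : F} (hx : rt_IsSepGen K x)
variable {B : Type w} [CommRing B] [IsDedekindDomain B] [Algebra K B] [Algebra B F]
  [IsScalarTower K B F] [IsFractionRing B F] (hB : ffd_IsChart K B x)

include hB

/-- `L(m T∞ - D) = Λ_m ∩ I_D` for an effective divisor `D` supported at the finite places. -/
theorem ffd_mem_Lam_inf_ideal_iff {D : Divisor K F} (hD : 0 ≤ D)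
    (hfin : ∀ v, D v ≠ 0 → x ∈ v.toValuationSubring) (m : ℤ) (a : B) :
    (a ∈ ffd_Lam hx B m ∧ a ∈ ffd_ideal B D) ↔
      algebraMap B F a ∈ riemannRochSpace (m • ffd_Tinf hx - D) := by
  rcases eq_or_ne a 0 with rfl | ha
  · rw [map_zero]
    exact ⟨fun _ => zero_mem _, fun _ => ⟨zero_mem _, zero_mem _⟩⟩
  have ha' : algebraMap B F a ≠ 0 := ffd_map_ne_zero ha
  have hfin' : ∀ v, D v ≠ 0 → ffd_IsFin B v :=
    fun v hv => (hB.isFin_iff v).mpr (hfin v hv)
  rw [ffd_mem_Lam_iff hx m ha, ffd_mem_ideal_iff hD hfin' ha, rt_mem_L_iff ha']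
  constructor
  · rintro ⟨h1, h2⟩ v
    rw [Finsupp.sub_apply, Finsupp.smul_apply, smul_eq_mul]
    by_cases hv : x ∈ v.toValuationSubring
    · have := h2 v ((hB.isFin_iff v).mpr hv)
      rw [(ffd_Tinf_eq_zero_iff hx v).mpr hv, mul_zero, zero_sub, neg_neg]
      exact this
    · have hDv : D v = 0 := by
        by_contra h; exact hv (hfin v h)
      rw [hDv, sub_zero]; exact h1 v
  · intro h
    refine ⟨fun v => ?_, fun v hv => ?_⟩
    · have := h v
      rw [Finsupp.sub_apply, Finsupp.smul_apply, smul_eq_mul] at this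
      have hDv := hD v
      rw [Finsupp.zero_apply] at hDv
      omega
    · have := h v
      rw [Finsupp.sub_apply, Finsupp.smul_apply, smul_eq_mul,
        (ffd_Tinf_eq_zero_iff hx v).mpr ((hB.isFin_iff v).mp hv), mul_zero, zero_sub,
        neg_neg] at this
      exact this

/-- the `K`-linear equivalence `Λ_m ∩ I_D ≃ L(m T∞ - D)`. -/
noncomputable def ffd_LamIdealEquiv {D : Divisor K F} (hD : 0 ≤ D)
    (hfin : ∀ v, D v ≠ 0 → x ∈ v.toValuationSubring) (m : ℤ) :
    ↥(ffd_Lam hx B m ⊓ (ffd_ideal B D).restrictScalars K) ≃ₗ[K]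
      ↥(riemannRochSpace (m • ffd_Tinf hx - D)) :=
  LinearEquiv.ofBijective
    ((ffd_incl K B).restrict
      (p := ffd_Lam hx B m ⊓ (ffd_ideal B D).restrictScalars K)
      (q := riemannRochSpace (m • ffd_Tinf hx - D))
      (fun a ha => (ffd_mem_Lam_inf_ideal_iff hx hB hD hfin m a).mp ⟨ha.1, ha.2⟩))
    ⟨fun _ _ h => Subtype.ext (ffd_incl_injective B
        (congrArg (fun t : ↥(riemannRochSpace (m • ffd_Tinf hx - D)) => (t : F)) h)),
      fun f => by
        have hle : m • ffd_Tinf hx - D ≤ m • ffd_Tinf hx := sub_le_self _ hD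
        obtain ⟨b, hb⟩ := ffd_L_le_chart hx hB m (rt_L_mono hle f.2)
        have := (ffd_mem_Lam_inf_ideal_iff hx hB hD hfin m b).mpr (by rw [hb]; exact f.2)
        exact ⟨⟨b, ⟨this.1, this.2⟩⟩, Subtype.ext hb⟩⟩

/-- **Riemann's theorem in ideal form**: `B = Λ_m + I_D` (i.e. `Λ_m → B / I_D` is onto) as soon as
`m · [F : K(x)] ≥ c + deg D`, `c` the constant of Riemann's theorem. -/
theorem ffd_Lam_add_ideal (g : ℕ) (c : ℤ)
    (hR : ∀ E : Divisor K F, c ≤ Divisor.degree E →
      (Module.finrank K ↥(riemannRochSpace E) : ℤ) = Divisor.degree E + 1 - g)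
    {D : Divisor K F} (hD : 0 ≤ D) (hfin : ∀ v, D v ≠ 0 → x ∈ v.toValuationSubring) (m : ℤ)
    (hm : c + Divisor.degree D ≤ m * (Module.finrank K⟮x⟯ F : ℤ)) (b : B) :
    ∃ a ∈ ffd_Lam hx B m, b - a ∈ ffd_ideal B D := by
  have hxalg := hx.isAlgebraic
  have hfin' : ∀ v, D v ≠ 0 → ffd_IsFin B v :=
    fun v hv => (hB.isFin_iff v).mpr (hfin v hv)
  set I := ffd_ideal B D with hI
  obtain ⟨hfinQ, hdimQ⟩ := ffd_finrank_quot_ideal (K := K) (F := F) (B := B) x hD hfin'
  set φ := (Ideal.Quotient.mkₐ K I).toLinearMap.domRestrict (ffd_Lam hx B m) with hφ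
  have hφa : ∀ a : ↥(ffd_Lam hx B m), φ a = Ideal.Quotient.mk I (a : B) := fun a => rfl
  have hfinL := ffd_finite_Lam hx hB m
  have hdegD : 0 ≤ Divisor.degree D := rt_degree_nonneg hx hD
  have hdeg1 : Divisor.degree (m • ffd_Tinf hx) = m * (Module.finrank K⟮x⟯ F : ℤ) := by
    rw [map_zsmul, ffd_degree_Tinf, smul_eq_mul]
  have hdeg2 : Divisor.degree (m • ffd_Tinf hx - D) =
      m * (Module.finrank K⟮x⟯ F : ℤ) - Divisor.degree D := by
    rw [map_sub, hdeg1]
  have h1 := hR (m • ffd_Tinf hx) (by rw [hdeg1]; omega)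
  have h2 := hR (m • ffd_Tinf hx - D) (by rw [hdeg2]; omega)
  rw [hdeg1, ← ffd_finrank_Lam hx hB m] at h1
  rw [hdeg2] at h2
  have hkereq : LinearMap.ker φ =
      Submodule.comap (ffd_Lam hx B m).subtype (ffd_Lam hx B m ⊓ I.restrictScalars K) := by
    ext a
    rw [LinearMap.mem_ker, hφa, Ideal.Quotient.eq_zero_iff_mem, Submodule.mem_comap,
      Submodule.mem_inf]
    constructor
    · intro h; exact ⟨a.2, h⟩
    · intro h; exact h.2
  have hker : Module.finrank K ↥(LinearMap.ker φ) =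
      Module.finrank K ↥(riemannRochSpace (m • ffd_Tinf hx - D)) := by
    rw [hkereq]
    exact ((Submodule.comapSubtypeEquivOfLe inf_le_left).trans
      (ffd_LamIdealEquiv hx hB hD hfin m)).finrank_eq
  have hrn := LinearMap.finrank_range_add_finrank_ker φ
  have hrange : Module.finrank K ↥(LinearMap.range φ) = Module.finrank K (B ⧸ I) := by
    have : (Module.finrank K ↥(LinearMap.range φ) : ℤ) = (Module.finrank K (B ⧸ I) : ℤ) := by
      rw [hdimQ]
      have h3 : (Module.finrank K ↥(LinearMap.range φ) : ℤ) +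
          (Module.finrank K ↥(LinearMap.ker φ) : ℤ) = (Module.finrank K ↥(ffd_Lam hx B m) : ℤ) := by
        exact_mod_cast hrn
      rw [hker] at h3
      omega
    exact_mod_cast this
  have hsurj : Function.Surjective φ :=
    LinearMap.range_eq_top.mp (Submodule.eq_top_of_finrank_eq hrange)
  obtain ⟨a, ha⟩ := hsurj (Ideal.Quotient.mk I b)
  refine ⟨a, a.2, ?_⟩
  rw [hφa] at ha
  exact Ideal.Quotient.eq.mp ha.symm

include hx in
/-- an ideal of finite codimension of a chart is nonzero. -/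
theorem ffd_ne_bot_of_finite (I : Ideal B) [Module.Finite K (B ⧸ I)] : I ≠ ⊥ := by
  rintro rfl
  have e : (B ⧸ (⊥ : Ideal B)) ≃ₗ[K] B :=
    (AlgEquiv.quotientBot K B).toLinearEquiv
  have hfinB : Module.Finite K B := Module.Finite.equiv e
  obtain ⟨b, hb⟩ := hB.exists_eq
  have hint : IsIntegral K b := Algebra.IsIntegral.isIntegral b
  have : IsIntegral K (algebraMap B F b) := hint.map (IsScalarTower.toAlgHom K B F)
  rw [hb] at this
  exact hx.1 this.isAlgebraic

/-- Riemann's theorem in ideal form, for an arbitrary nonzero ideal. -/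
theorem ffd_Lam_add_ideal' (g : ℕ) (c : ℤ)
    (hR : ∀ E : Divisor K F, c ≤ Divisor.degree E →
      (Module.finrank K ↥(riemannRochSpace E) : ℤ) = Divisor.degree E + 1 - g)
    (I : Ideal B) (hI : I ≠ ⊥) (m : ℤ)
    (hm : c + (Module.finrank K (B ⧸ I) : ℤ) ≤ m * (Module.finrank K⟮x⟯ F : ℤ)) (b : B) :
    ∃ a ∈ ffd_Lam hx B m, b - a ∈ I := by
  have hxalg := hx.isAlgebraic
  have hfin : ∀ v, (ffd_div I : Divisor K F) v ≠ 0 → x ∈ v.toValuationSubring := by
    intro v hv
    by_contra h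
    exact hv (ffd_div_of_not_isFin _ fun h' => h ((hB.isFin_iff v).mp h'))
  have hdeg := (ffd_finrank_quot (K := K) (F := F) x I hI).2
  have := ffd_Lam_add_ideal hx hB g c hR (ffd_div_nonneg I) hfin m (by rw [← hdeg]; exact hm) b
  rwa [ffd_ideal_div hI] at this

end riemann

/-! ### Functions of exact pole order -/

section exact

variable [IsAlgClosed K] {x : F} (hx : rt_IsSepGen K x)
variable {B : Type w} [CommRing B] [IsDedekindDomain B] [Algebra K B] [Algebra B F]
  [IsScalarTower K B F] [IsFractionRing B F] (hB : ffd_IsChart K B x)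

/-- `f ∈ B` has **exact pole order `m`** at the cusps: `ord_v f = m · ord_v x` at every pole `v`
of `x` (so `f / x^m` is a unit at every cusp). -/
def ffd_IsExact (m : ℕ) (f : B) : Prop :=
  f ≠ 0 ∧ ∀ v : Place K F, x ∉ v.toValuationSubring → v.ord (algebraMap B F f) = m * v.ord x

include hx hB

theorem ffd_IsExact.mem_Lam {m : ℕ} {f : B} (hf : ffd_IsExact (K := K) (x := x) m f) :
    f ∈ ffd_Lam hx B (m : ℤ) := by
  rw [ffd_mem_Lam_iff hx _ hf.1]
  intro v
  by_cases hv : x ∈ v.toValuationSubring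
  · rw [(ffd_Tinf_eq_zero_iff hx v).mpr hv, mul_zero, neg_zero,
      ← hw_mem_iff_ord_nonneg v (ffd_map_ne_zero hf.1)]
    exact (hB.isFin_iff v).mpr hv f
  · rw [hf.2 v hv, ffd_Tinf_eq_neg_ord hx hv]
    linarith

/-- the pole divisor of a function of exact order `m` is `m T∞`. -/
theorem ffd_IsExact.poleDiv {m : ℕ} {f : B} (hf : ffd_IsExact (K := K) (x := x) m f) :
    rt_poleDiv hx (algebraMap B F f) = (m : ℤ) • ffd_Tinf hx := by
  ext v
  rw [rt_poleDiv_apply, Finsupp.smul_apply, smul_eq_mul]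
  by_cases hv : x ∈ v.toValuationSubring
  · rw [(ffd_Tinf_eq_zero_iff hx v).mpr hv, mul_zero]
    have := (hB.isFin_iff v).mpr hv f
    rw [hw_mem_iff_ord_nonneg v (ffd_map_ne_zero hf.1)] at this
    exact max_eq_right (by omega)
  · rw [hf.2 v hv, ffd_Tinf_eq_neg_ord hx hv]
    have h0 : v.ord x < 0 := by
      have := hv
      rw [hw_mem_iff_ord_nonneg v (ffd_x_ne_zero hx)] at this
      omega
    have : (0 : ℤ) ≤ (m : ℤ) * -v.ord x := mul_nonneg (Int.natCast_nonneg _) (by omega)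
    rw [max_eq_left (by linarith)]
    ring

/-- the divisor of the ideal `(f)` is the divisor of zeros of `f`: no zero at the cusps. -/
theorem ffd_IsExact.div_span {m : ℕ} {f : B} (hf : ffd_IsExact (K := K) (x := x) m f) :
    (ffd_div (Ideal.span {f}) : Divisor K F) = rt_zeroDiv hx (algebraMap B F f) := by
  ext v
  rw [rt_zeroDiv_apply]
  by_cases hv : x ∈ v.toValuationSubring
  · have hfin := (hB.isFin_iff v).mpr hv
    rw [ffd_div_span_singleton hf.1 hfin]
    have := hfin f
    rw [hw_mem_iff_ord_nonneg v (ffd_map_ne_zero hf.1)] at this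
    exact (max_eq_left this).symm
  · have hnf : ¬ ffd_IsFin B v := fun h => hv ((hB.isFin_iff v).mp h)
    rw [ffd_div_of_not_isFin _ hnf, hf.2 v hv]
    have h0 : v.ord x < 0 := by
      have := hv
      rw [hw_mem_iff_ord_nonneg v (ffd_x_ne_zero hx)] at this
      omega
    have : (m : ℤ) * v.ord x ≤ 0 := mul_nonpos_of_nonneg_of_nonpos (Int.natCast_nonneg _) (by omega)
    exact (max_eq_right this).symm

theorem ffd_IsExact.degree_div_span {m : ℕ} {f : B} (hf : ffd_IsExact (K := K) (x := x) m f) :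
    Divisor.degree (ffd_div (Ideal.span {f}) : Divisor K F) =
      m * (Module.finrank K⟮x⟯ F : ℤ) := by
  rw [hf.div_span hx hB]
  have h1 := rt_degree_div hx (algebraMap B F f)
  rw [rt_div_eq_sub, map_sub, hf.poleDiv hx hB, map_zsmul, ffd_degree_Tinf, smul_eq_mul] at h1
  linarith

/-- **`dim_K B / (f) = m · [F : K(x)]`** for `f` of exact pole order `m`. -/
theorem ffd_IsExact.finrank_quot {m : ℕ} {f : B} (hf : ffd_IsExact (K := K) (x := x) m f) :
    Module.Finite K (B ⧸ Ideal.span {f}) ∧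
      Module.finrank K (B ⧸ Ideal.span {f}) = m * Module.finrank K⟮x⟯ F := by
  have hxalg := hx.isAlgebraic
  have hne : Ideal.span {f} ≠ ⊥ := by
    rw [Ne, Ideal.span_singleton_eq_bot]; exact hf.1
  obtain ⟨h1, h2⟩ := ffd_finrank_quot (K := K) (F := F) x (Ideal.span {f}) hne
  refine ⟨h1, ?_⟩
  rw [hf.degree_div_span hx hB] at h2
  exact_mod_cast h2

/-- **division by a function of exact pole order**: `B = Λ_{s₀+m} + f B` as soon as
`s₀ · [F : K(x)] ≥ c`, `c` the constant of Riemann's theorem. -/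
theorem ffd_IsExact.add_span (g : ℕ) (c : ℤ)
    (hR : ∀ E : Divisor K F, c ≤ Divisor.degree E →
      (Module.finrank K ↥(riemannRochSpace E) : ℤ) = Divisor.degree E + 1 - g)
    {m : ℕ} {f : B} (hf : ffd_IsExact (K := K) (x := x) m f) (s₀ : ℤ)
    (hs₀ : c ≤ s₀ * (Module.finrank K⟮x⟯ F : ℤ)) (a : B) :
    ∃ l ∈ ffd_Lam hx B (s₀ + m), ∃ b : B, a = l + f * b := by
  have hne : Ideal.span {f} ≠ ⊥ := by
    rw [Ne, Ideal.span_singleton_eq_bot]; exact hf.1
  set D : Divisor K F := ffd_div (Ideal.span {f}) with hDdef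
  have hD : 0 ≤ D := ffd_div_nonneg _
  have hfin : ∀ v, D v ≠ 0 → x ∈ v.toValuationSubring := by
    intro v hv
    by_contra h
    exact hv (ffd_div_of_not_isFin _ fun h' => h ((hB.isFin_iff v).mp h'))
  have hdeg : Divisor.degree D = m * (Module.finrank K⟮x⟯ F : ℤ) := hf.degree_div_span hx hB
  obtain ⟨l, hl, hal⟩ := ffd_Lam_add_ideal hx hB g c hR hD hfin (s₀ + m)
    (by rw [hdeg]; linarith) a
  rw [hDdef, ffd_ideal_div hne, Ideal.mem_span_singleton'] at hal
  obtain ⟨b, hb⟩ := hal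
  exact ⟨l, hl, b, by rw [mul_comm, hb]; ring⟩

/-- the filtered form: `Λ_{s+m} = Λ_{s₀+m} + f Λ_s` for `s ≥ s₀`. -/
theorem ffd_IsExact.division (g : ℕ) (c : ℤ)
    (hR : ∀ E : Divisor K F, c ≤ Divisor.degree E →
      (Module.finrank K ↥(riemannRochSpace E) : ℤ) = Divisor.degree E + 1 - g)
    {m : ℕ} {f : B} (hf : ffd_IsExact (K := K) (x := x) m f) (s₀ : ℤ)
    (hs₀ : c ≤ s₀ * (Module.finrank K⟮x⟯ F : ℤ)) {s : ℤ} (hs : s₀ ≤ s) {a : B}
    (ha : a ∈ ffd_Lam hx B (s + m)) :
    ∃ l ∈ ffd_Lam hx B (s₀ + m), ∃ b ∈ ffd_Lam hx B s, a = l + f * b := by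
  obtain ⟨l, hl, b, hab⟩ := hf.add_span hx hB g c hR s₀ hs₀ a
  refine ⟨l, hl, b, ?_, hab⟩
  rcases eq_or_ne b 0 with rfl | hb0
  · exact zero_mem _
  have hfb : f * b ∈ ffd_Lam hx B (s + m) := by
    have : f * b = a - l := by rw [hab]; ring
    rw [this]
    exact Submodule.sub_mem _ ha (ffd_Lam_mono hx (by omega) hl)
  have hfb0 : f * b ≠ 0 := mul_ne_zero hf.1 hb0
  rw [ffd_mem_Lam_iff hx _ hb0]
  intro v
  by_cases hv : x ∈ v.toValuationSubring
  · rw [(ffd_Tinf_eq_zero_iff hx v).mpr hv, mul_zero, neg_zero,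
      ← hw_mem_iff_ord_nonneg v (ffd_map_ne_zero hb0)]
    exact (hB.isFin_iff v).mpr hv b
  · have h1 := (ffd_mem_Lam_iff hx _ hfb0).mp hfb v
    rw [map_mul, v.ord_mul (ffd_map_ne_zero hf.1) (ffd_map_ne_zero hb0), hf.2 v hv,
      ffd_Tinf_eq_neg_ord hx hv] at h1
    rw [ffd_Tinf_eq_neg_ord hx hv]
    linarith

end exact

end Fermat.Agent.FF
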