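/-
Project FF, cell [DICT], part (E): from divisors to ideals.  Existence of functions of exact pole
order inside an ideal, linear equivalence in ideal form, `l(D) = 1` in ideal form.  Prefix `ffd_`.

Context: `K` algebraically closed, `x` a separating generator of `F / K`, `B` a chart of `x`
(`ffd_IsChart K B x`), `(g, c, hR)` the output of Riemann's theorem `rt_riemann`.

* `ffd_exists_exact`    : for `s n ≥ c + deg D + 1` there is `h ∈ I_D` of exact pole order `s`;
* `ffd_linEq_of_div`    : `div f = D₁ + D₂ - D₃ - D₄` (effective, off the cusps) gives `h, h'` of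
                          exact pole order `s` with `(h) I₁ I₂ = (h') I₃ I₄`;
* `ffd_uniq_of_l_one`   : `l(D) = 1` gives: `u ∈ Λ_s`, `u'` exact of order `s`, `u' ∣ u w` for all
                          `w ∈ I_D` imply `u = c u'`.
-/
import Mathlib
import Fermat.Agent.FF.Dict.LSpace

set_option autoImplicit false
set_option linter.unusedSectionVars false
set_option linter.unusedVariables false

namespace Fermat.Agent.FF

open AlgebraicCurve IntermediateField IsDedekindDomain UniqueFactorizationMonoid WithZero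
open Fermat.Agent.S24 Fermat.Agent.JT3

universe u v w
variable {K : Type u} {F : Type v} [Field K] [Field F] [Algebra K F]
variable [IsAlgClosed K] {x : F} (hx : rt_IsSepGen K x)
variable {B : Type w} [CommRing B] [IsDedekindDomain B] [Algebra K B] [Algebra B F]
  [IsScalarTower K B F] [IsFractionRing B F] (hB : ffd_IsChart K B x)

/-! ### Functions of exact pole order in a Riemann–Roch space -/

include hx in
/-- for `deg E ≥ c + 1` there is `f ∈ L(E)`, `f ≠ 0`, with `ord_v f = - E v` at every place `v` of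
a given finite set. -/
theorem ffd_exists_exact_L (g : ℕ) (c : ℤ)
    (hR : ∀ E : Divisor K F, c ≤ Divisor.degree E →
      (Module.finrank K ↥(riemannRochSpace E) : ℤ) = Divisor.degree E + 1 - g)
    (E : Divisor K F) (hE : c + 1 ≤ Divisor.degree E) (S : Finset (Place K F)) :
    ∃ f : F, f ≠ 0 ∧ f ∈ riemannRochSpace E ∧ ∀ v ∈ S, v.ord f = -E v := by
  classical
  have hfinE := rt_L_finite hx E
  -- the subspaces `L(E - v)` of `L(E)`
  let W : Place K F → Subspace K ↥(riemannRochSpace E) := fun v =>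
    (riemannRochSpace (E - Finsupp.single v 1)).comap (riemannRochSpace E).subtype
  have hle : ∀ v, riemannRochSpace (E - Finsupp.single v 1) ≤ riemannRochSpace E := fun v =>
    rt_L_mono (sub_le_self _ (by
      intro w; rw [Finsupp.zero_apply]
      by_cases h : w = v
      · subst h; rw [Finsupp.single_eq_same]; norm_num
      · rw [Finsupp.single_eq_of_ne h]))
  have hdim : ∀ v, Module.finrank K ↥(W v) < Module.finrank K ↥(riemannRochSpace E) := by
    intro v
    have e : ↥(W v) ≃ₗ[K] ↥(riemannRochSpace (E - Finsupp.single v 1)) :=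
      Submodule.comapSubtypeEquivOfLe (hle v)
    rw [e.finrank_eq]
    have h1 := hR E (by omega)
    have hdeg : Divisor.degree (E - Finsupp.single v 1) = Divisor.degree E - 1 := by
      rw [map_sub, rt_degree_single hx]
    have h2 := hR (E - Finsupp.single v 1) (by rw [hdeg]; omega)
    rw [hdeg] at h2
    have : (Module.finrank K ↥(riemannRochSpace (E - Finsupp.single v 1)) : ℤ) <
        (Module.finrank K ↥(riemannRochSpace E) : ℤ) := by omega
    exact_mod_cast this
  -- a place exists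
  obtain ⟨v0⟩ : Nonempty (Place K F) := by
    by_contra hne
    rw [not_nonempty_iff] at hne
    have h0 : ffd_Tinf hx = 0 := by
      ext v; exact (hne.false v).elim
    have h1 := ffd_degree_Tinf hx
    rw [h0, map_zero] at h1
    have hfd := hx.2.1
    have : 0 < Module.finrank K⟮x⟯ F := Module.finrank_pos
    omega
  set S' := insert v0 S with hS'
  set s : Finset (Subspace K ↥(riemannRochSpace E)) := S'.image W with hs
  have htop : (⊤ : Subspace K ↥(riemannRochSpace E)) ∉ s := by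
    intro h
    rw [hs, Finset.mem_image] at h
    obtain ⟨v, -, hv⟩ := h
    have := hdim v
    rw [hv, finrank_top] at this
    exact lt_irrefl _ this
  have hne := Subspace.biUnion_ne_univ_of_top_notMem htop
  obtain ⟨f, hf⟩ : ∃ f : ↥(riemannRochSpace E), f ∉ ⋃ p ∈ s, (p : Set ↥(riemannRochSpace E)) := by
    by_contra hall
    push Not at hall
    exact hne (Set.eq_univ_of_forall hall)
  have hfW : ∀ v ∈ S', (f : F) ∉ riemannRochSpace (E - Finsupp.single v 1) := by
    intro v hv hmem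
    apply hf
    simp only [Set.mem_iUnion]
    exact ⟨W v, by rw [hs]; exact Finset.mem_image_of_mem W hv, hmem⟩
  have hf0 : (f : F) ≠ 0 := by
    intro h0
    apply hfW v0 (Finset.mem_insert_self v0 S)
    rw [h0]; exact zero_mem _
  refine ⟨f, hf0, f.2, fun v hv => ?_⟩
  have h1 := (rt_mem_L_iff hf0).mp f.2
  have h2 := hfW v (Finset.mem_insert_of_mem hv)
  rw [rt_mem_L_iff hf0] at h2
  push Not at h2
  obtain ⟨w, hw⟩ := h2
  by_cases hwv : w = v
  · subst hwv
    rw [Finsupp.sub_apply, Finsupp.single_eq_same] at hw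
    have := h1 w
    omega
  · rw [Finsupp.sub_apply, Finsupp.single_eq_of_ne hwv, sub_zero] at hw
    have := h1 w
    omega

include hx hB

/-- **existence of functions of exact pole order in an ideal**: for `s n ≥ c + deg D + 1` there is
`h ∈ I_D` of exact pole order `s` at the cusps. -/
theorem ffd_exists_exact (g : ℕ) (c : ℤ)
    (hR : ∀ E : Divisor K F, c ≤ Divisor.degree E →
      (Module.finrank K ↥(riemannRochSpace E) : ℤ) = Divisor.degree E + 1 - g)
    {D : Divisor K F} (hD : 0 ≤ D) (hfin : ∀ v, D v ≠ 0 → x ∈ v.toValuationSubring) (s : ℕ)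
    (hs : c + Divisor.degree D + 1 ≤ s * (Module.finrank K⟮x⟯ F : ℤ)) :
    ∃ h : B, ffd_IsExact (K := K) (x := x) s h ∧ h ∈ ffd_ideal B D := by
  have hdeg : Divisor.degree ((s : ℤ) • ffd_Tinf hx - D) =
      s * (Module.finrank K⟮x⟯ F : ℤ) - Divisor.degree D := by
    rw [map_sub, map_zsmul, ffd_degree_Tinf, smul_eq_mul]
  obtain ⟨f, hf0, hfL, hford⟩ := ffd_exists_exact_L hx g c hR ((s : ℤ) • ffd_Tinf hx - D)
    (by rw [hdeg]; omega) (ffd_Tinf hx).support
  have hle : (s : ℤ) • ffd_Tinf hx - D ≤ (s : ℤ) • ffd_Tinf hx := sub_le_self _ hD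
  obtain ⟨h, hh⟩ := ffd_L_le_chart hx hB (s : ℤ) (rt_L_mono hle hfL)
  have hh0 : h ≠ 0 := by
    rintro rfl
    rw [map_zero] at hh
    exact hf0 hh.symm
  refine ⟨h, ⟨hh0, fun v hv => ?_⟩, ?_⟩
  · have hvs : v ∈ (ffd_Tinf hx).support := by
      rw [Finsupp.mem_support_iff]
      exact ne_of_gt ((ffd_Tinf_pos_iff hx v).mpr hv)
    have hDv : D v = 0 := by
      by_contra h'; exact hv (hfin v h')
    rw [hh, hford v hvs, Finsupp.sub_apply, Finsupp.smul_apply, smul_eq_mul, hDv, sub_zero,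
      ffd_Tinf_eq_neg_ord hx hv]
    ring
  · exact ((ffd_mem_Lam_inf_ideal_iff hx hB hD hfin (s : ℤ) h).mpr (by rw [hh]; exact hfL)).2

/-- **linear equivalence in ideal form**: if `div f = D₁ + D₂ - D₃ - D₄` with the `D_i` effective
and supported off the cusps, then `(h) I₁ I₂ = (h') I₃ I₄` for two functions `h, h'` of one and the
same exact pole order `s` at the cusps. -/
theorem ffd_linEq_of_div (g : ℕ) (c : ℤ)
    (hR : ∀ E : Divisor K F, c ≤ Divisor.degree E →
      (Module.finrank K ↥(riemannRochSpace E) : ℤ) = Divisor.degree E + 1 - g)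
    {D₁ D₂ D₃ D₄ : Divisor K F} (h1 : 0 ≤ D₁) (h2 : 0 ≤ D₂) (h3 : 0 ≤ D₃) (h4 : 0 ≤ D₄)
    (hf1 : ∀ v, D₁ v ≠ 0 → x ∈ v.toValuationSubring)
    (hf2 : ∀ v, D₂ v ≠ 0 → x ∈ v.toValuationSubring)
    (hf3 : ∀ v, D₃ v ≠ 0 → x ∈ v.toValuationSubring)
    (hf4 : ∀ v, D₄ v ≠ 0 → x ∈ v.toValuationSubring)
    {f : F} (hf : f ≠ 0) (hdiv : ∀ v : Place K F, v.ord f = D₁ v + D₂ v - D₃ v - D₄ v) :
    ∃ (s : ℕ) (h h' : B), ffd_IsExact (K := K) (x := x) s h ∧ ffd_IsExact (K := K) (x := x) s h' ∧
      Ideal.span {h} * ffd_ideal B D₁ * ffd_ideal B D₂ =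
        Ideal.span {h'} * ffd_ideal B D₃ * ffd_ideal B D₄ := by
  have hfinB : ∀ {D : Divisor K F}, (∀ v, D v ≠ 0 → x ∈ v.toValuationSubring) →
      ∀ v, D v ≠ 0 → ffd_IsFin B v := fun h v hv => (hB.isFin_iff v).mpr (h v hv)
  have h34 : 0 ≤ D₃ + D₄ := add_nonneg h3 h4
  have hf34 : ∀ v, (D₃ + D₄) v ≠ 0 → x ∈ v.toValuationSubring := by
    intro v hv
    by_cases h : D₃ v ≠ 0
    · exact hf3 v h
    · push Not at h
      rw [Finsupp.add_apply, h, zero_add] at hv
      exact hf4 v hv
  have hn : 0 < (Module.finrank K⟮x⟯ F : ℤ) := by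
    have hfd := hx.2.1
    exact_mod_cast (Module.finrank_pos : 0 < Module.finrank K⟮x⟯ F)
  -- choose `s` large
  obtain ⟨s, hs⟩ : ∃ s : ℕ, c + Divisor.degree (D₃ + D₄) + 1 ≤ s * (Module.finrank K⟮x⟯ F : ℤ) := by
    refine ⟨(c + Divisor.degree (D₃ + D₄) + 1).toNat, ?_⟩
    have := Int.self_le_toNat (c + Divisor.degree (D₃ + D₄) + 1)
    nlinarith [Int.natCast_nonneg (c + Divisor.degree (D₃ + D₄) + 1).toNat]
  obtain ⟨h, hhex, hhmem⟩ := ffd_exists_exact hx hB g c hR h34 hf34 s hs
  -- `h' = h f`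
  have hh0 : algebraMap B F h ≠ 0 := ffd_map_ne_zero hhex.1
  have hhf0 : algebraMap B F h * f ≠ 0 := mul_ne_zero hh0 hf
  have hordh : ∀ v, ffd_IsFin B v → (D₃ + D₄) v ≤ v.ord (algebraMap B F h) :=
    (ffd_mem_ideal_iff h34 (hfinB hf34) hhex.1).mp hhmem
  have hmemB : ∃ h' : B, algebraMap B F h' = algebraMap B F h * f := by
    apply (hB _).mpr
    intro v hv
    rw [hw_mem_iff_ord_nonneg v hhf0, v.ord_mul hh0 hf, hdiv v]
    have := hordh v ((hB.isFin_iff v).mpr hv)
    rw [Finsupp.add_apply] at this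
    have a1 := h1 v; have a2 := h2 v
    rw [Finsupp.zero_apply] at a1 a2
    omega
  obtain ⟨h', hh'⟩ := hmemB
  have hh'0 : h' ≠ 0 := by
    rintro rfl
    rw [map_zero] at hh'
    exact hhf0 hh'.symm
  have hcusp : ∀ v : Place K F, x ∉ v.toValuationSubring → v.ord f = 0 := by
    intro v hv
    have e1 : D₁ v = 0 := by by_contra h; exact hv (hf1 v h)
    have e2 : D₂ v = 0 := by by_contra h; exact hv (hf2 v h)
    have e3 : D₃ v = 0 := by by_contra h; exact hv (hf3 v h)
    have e4 : D₄ v = 0 := by by_contra h; exact hv (hf4 v h)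
    rw [hdiv v, e1, e2, e3, e4]; ring
  have hh'ex : ffd_IsExact (K := K) (x := x) s h' := by
    refine ⟨hh'0, fun v hv => ?_⟩
    rw [hh', v.ord_mul hh0 hf, hcusp v hv, add_zero, hhex.2 v hv]
  refine ⟨s, h, h', hhex, hh'ex, ?_⟩
  have hne : ∀ {a : B}, a ≠ 0 → Ideal.span {a} ≠ ⊥ := fun ha => by
    rw [Ne, Ideal.span_singleton_eq_bot]; exact ha
  apply ffd_div_injective (K := K) (F := F)
    (mul_ne_zero (mul_ne_zero (hne hhex.1) (ffd_ideal_ne_bot _)) (ffd_ideal_ne_bot _))
    (mul_ne_zero (mul_ne_zero (hne hh'0) (ffd_ideal_ne_bot _)) (ffd_ideal_ne_bot _))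
  rw [ffd_div_mul (mul_ne_zero (hne hhex.1) (ffd_ideal_ne_bot _)) (ffd_ideal_ne_bot _),
    ffd_div_mul (hne hhex.1) (ffd_ideal_ne_bot _),
    ffd_div_mul (mul_ne_zero (hne hh'0) (ffd_ideal_ne_bot _)) (ffd_ideal_ne_bot _),
    ffd_div_mul (hne hh'0) (ffd_ideal_ne_bot _),
    ffd_div_ideal h1 (hfinB hf1), ffd_div_ideal h2 (hfinB hf2), ffd_div_ideal h3 (hfinB hf3),
    ffd_div_ideal h4 (hfinB hf4)]
  ext v
  simp only [Finsupp.add_apply]
  by_cases hv : ffd_IsFin B v
  · rw [ffd_div_span_singleton hhex.1 hv, ffd_div_span_singleton hh'0 hv, hh',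
      v.ord_mul hh0 hf, hdiv v]
    ring
  · have hxv : x ∉ v.toValuationSubring := fun h => hv ((hB.isFin_iff v).mpr h)
    have e1 : D₁ v = 0 := by by_contra h; exact hxv (hf1 v h)
    have e2 : D₂ v = 0 := by by_contra h; exact hxv (hf2 v h)
    have e3 : D₃ v = 0 := by by_contra h; exact hxv (hf3 v h)
    have e4 : D₄ v = 0 := by by_contra h; exact hxv (hf4 v h)
    rw [ffd_div_of_not_isFin _ hv, ffd_div_of_not_isFin _ hv, e1, e2, e3, e4]

omit hx hB in
/-- an element of `I_D` of order exactly `D v` at a given finite place `v`. -/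
theorem ffd_exists_mem_ideal_ord_eq {D : Divisor K F} (hD : 0 ≤ D)
    (hfin : ∀ v, D v ≠ 0 → ffd_IsFin B v) (v : Place K F) (hv : ffd_IsFin B v) :
    ∃ w : B, w ≠ 0 ∧ w ∈ ffd_ideal B D ∧ v.ord (algebraMap B F w) = D v := by
  have hD' : 0 ≤ D + Finsupp.single v 1 := add_nonneg hD (by
    intro w; rw [Finsupp.zero_apply]
    by_cases h : w = v
    · subst h; rw [Finsupp.single_eq_same]; norm_num
    · rw [Finsupp.single_eq_of_ne h])
  have hfin' : ∀ w : Place K F, (D + Finsupp.single v 1 : Divisor K F) w ≠ 0 → ffd_IsFin B w := by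
    intro w hw
    by_cases h : w = v
    · subst h; exact hv
    · rw [Finsupp.add_apply, Finsupp.single_eq_of_ne h, add_zero] at hw
      exact hfin w hw
  have hlt : ffd_ideal B (D + Finsupp.single v 1) < ffd_ideal B D := by
    refine lt_of_le_of_ne ((ffd_ideal_le_iff hD' hfin' hD hfin).mpr (le_add_of_nonneg_right (by
      intro w; rw [Finsupp.zero_apply]
      by_cases h : w = v
      · subst h; rw [Finsupp.single_eq_same]; norm_num
      · rw [Finsupp.single_eq_of_ne h]))) ?_
    intro heq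
    have := (ffd_ideal_le_iff hD hfin hD' hfin').mp heq.ge v
    rw [Finsupp.add_apply, Finsupp.single_eq_same] at this
    omega
  obtain ⟨w, hwD, hwD'⟩ := SetLike.exists_of_lt hlt
  have hw0 : w ≠ 0 := by
    rintro rfl; exact hwD' (zero_mem _)
  refine ⟨w, hw0, hwD, ?_⟩
  rw [ffd_mem_ideal_iff hD hfin hw0] at hwD
  rw [ffd_mem_ideal_iff hD' hfin' hw0] at hwD'
  push Not at hwD'
  obtain ⟨v', hv', hlt'⟩ := hwD'
  by_cases h : v' = v
  · subst h
    rw [Finsupp.add_apply, Finsupp.single_eq_same] at hlt'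
    have := hwD v' hv'
    omega
  · rw [Finsupp.add_apply, Finsupp.single_eq_of_ne h, add_zero] at hlt'
    have := hwD v' hv'
    omega

/-- **`l(D) = 1` in ideal form**: if `L(D)` is one-dimensional, `u ∈ Λ_s`, `u'` has exact pole order
`s` and `u' ∣ u w` for every `w ∈ I_D`, then `u` is a constant multiple of `u'`. -/
theorem ffd_uniq_of_l_one {D : Divisor K F} (hD : 0 ≤ D)
    (hfin : ∀ v, D v ≠ 0 → x ∈ v.toValuationSubring)
    (hl : Module.finrank K ↥(riemannRochSpace D) = 1) (s : ℕ) {u u' : B}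
    (hu : u ∈ ffd_Lam hx B (s : ℤ)) (hu' : ffd_IsExact (K := K) (x := x) s u')
    (hdvd : ∀ w ∈ ffd_ideal B D, u' ∣ u * w) : ∃ c : K, u = c • u' := by
  rcases eq_or_ne u 0 with rfl | hu0
  · exact ⟨0, by rw [zero_smul]⟩
  have hfin' : ∀ v, D v ≠ 0 → ffd_IsFin B v := fun v hv => (hB.isFin_iff v).mpr (hfin v hv)
  have hu0F : algebraMap B F u ≠ 0 := ffd_map_ne_zero hu0
  have hu'0F : algebraMap B F u' ≠ 0 := ffd_map_ne_zero hu'.1
  set φ : F := algebraMap B F u / algebraMap B F u' with hφ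
  have hφ0 : φ ≠ 0 := div_ne_zero hu0F hu'0F
  have hordφ : ∀ v : Place K F, v.ord φ = v.ord (algebraMap B F u) - v.ord (algebraMap B F u') := by
    intro v
    rw [hφ, div_eq_mul_inv, v.ord_mul hu0F (inv_ne_zero hu'0F), v.ord_inv]; ring
  have hφL : φ ∈ riemannRochSpace D := by
    rw [rt_mem_L_iff hφ0]
    intro v
    by_cases hv : x ∈ v.toValuationSubring
    · have hvB := (hB.isFin_iff v).mpr hv
      obtain ⟨w, hw0, hwD, hword⟩ := ffd_exists_mem_ideal_ord_eq hD hfin' v hvB
      obtain ⟨t, ht⟩ := hdvd w hwD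
      have hw0F : algebraMap B F w ≠ 0 := ffd_map_ne_zero hw0
      have ht0 : t ≠ 0 := by
        rintro rfl
        rw [mul_zero] at ht
        exact mul_ne_zero hu0 hw0 ht
      have hteq : algebraMap B F u * algebraMap B F w =
          algebraMap B F u' * algebraMap B F t := by
        rw [← map_mul, ← map_mul, ht]
      have h1 : v.ord (algebraMap B F u) + v.ord (algebraMap B F w) =
          v.ord (algebraMap B F u') + v.ord (algebraMap B F t) := by
        rw [← v.ord_mul hu0F hw0F, ← v.ord_mul hu'0F (ffd_map_ne_zero ht0), hteq]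
      have h2 : 0 ≤ v.ord (algebraMap B F t) := by
        rw [← hw_mem_iff_ord_nonneg v (ffd_map_ne_zero ht0)]
        exact hvB t
      rw [hordφ v]
      omega
    · have hDv : D v = 0 := by by_contra h; exact hv (hfin v h)
      have h1 := (ffd_mem_Lam_iff hx (s : ℤ) hu0).mp hu v
      rw [ffd_Tinf_eq_neg_ord hx hv] at h1
      rw [hordφ v, hu'.2 v hv, hDv]
      linarith
  have h1L : (1 : F) ∈ riemannRochSpace D := by
    have := rt_algebraMap_mem_L (K := K) hD (1 : K)
    rwa [map_one] at this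
  have hfinL := rt_L_finite hx D
  obtain ⟨c, hc⟩ := (finrank_eq_one_iff_of_nonzero' (⟨1, h1L⟩ : ↥(riemannRochSpace D))
    (by intro h; exact one_ne_zero (congrArg Subtype.val h))).mp hl ⟨φ, hφL⟩
  refine ⟨c, ?_⟩
  apply IsFractionRing.injective B F
  have hc' : c • (1 : F) = φ := congrArg Subtype.val hc
  rw [Algebra.smul_def, mul_one] at hc'
  rw [Algebra.smul_def, map_mul, ← IsScalarTower.algebraMap_apply, hc', hφ,
    div_mul_cancel₀ _ hu'0F]

end Fermat.Agent.FF
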