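/-
Project FF, cell [DICT], part (P): `K`-points of a Dedekind chart `B` of a function field `F / K`
(`K` algebraically closed) versus the finite places of the chart.  Prefix `ffd_`.

* `ffd_ev v hv : B →ₐ[K] K`       : the value at a finite place;
  `ffd_ker_ev`                     : its kernel is the prime of the place;
  `ffd_ev_spec`                    : `b - (ffd_ev v hv b)` vanishes at `v`;
* `ffd_placeOfPt hx hB p`          : the place of a `K`-point `p : B →ₐ[K] K`;
  `ffd_ev_placeOfPt`, `ffd_placeOfPt_ev` : the two constructions are inverse to each other;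
* `ffd_div_prod_ker`               : `div (∏ ker (p i)) = ∑ (place of p i)`;
  `ffd_ideal_sum_single`           : `I_{v₁ + ⋯ + v_g} = ∏ ker (ev v_i)`.
-/
import Mathlib
import Fermat.Agent.FF.Dict.LSpace

set_option autoImplicit false
set_option linter.unusedSectionVars false
set_option linter.unusedVariables false

namespace Fermat.Agent.FF

open AlgebraicCurve IntermediateField IsDedekindDomain UniqueFactorizationMonoid WithZero
open Fermat.Agent.S24 Fermat.Agent.JT3

universe u v w
variable {K : Type u} {F : Type v} [Field K] [Field F] [Algebra K F]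
variable [IsAlgClosed K] {x : F} (hx : rt_IsSepGen K x)
variable {B : Type w} [CommRing B] [IsDedekindDomain B] [Algebra K B] [Algebra B F]
  [IsScalarTower K B F] [IsFractionRing B F]

/-! ### The value at a finite place -/

/-- the residue field of a place is `K`. -/
noncomputable def ffd_resEquiv (v : Place K F) : K ≃ₐ[K] v.ResidueField :=
  have := hx.isAlgebraic
  AlgEquiv.ofBijective (Algebra.ofId K v.ResidueField)
    ⟨(algebraMap K v.ResidueField).injective, hw_algebraMap_residueField_surjective x v⟩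

theorem ffd_resEquiv_apply (v : Place K F) (c : K) :
    ffd_resEquiv hx v c = algebraMap K v.ResidueField c := rfl

/-- the value at a finite place, as a ring homomorphism. -/
noncomputable def ffd_evHom (v : Place K F) (hv : ffd_IsFin B v) : B →+* K :=
  ((ffd_resEquiv hx v).symm : v.ResidueField →+* K).comp
    ((IsLocalRing.residue v.toValuationSubring).comp (hw_inclB v hv))

theorem ffd_evHom_algebraMap (v : Place K F) (hv : ffd_IsFin B v) (c : K) :
    ffd_evHom hx v hv (algebraMap K B c) = c := by
  have h1 : hw_inclB v hv (algebraMap K B c) = algebraMap K v.toValuationSubring c := by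
    apply Subtype.ext
    rw [hw_inclB_coe, ← IsScalarTower.algebraMap_apply]
    rfl
  show (ffd_resEquiv hx v).symm
    (IsLocalRing.residue v.toValuationSubring (hw_inclB v hv (algebraMap K B c))) = c
  rw [h1]
  have h2 : IsLocalRing.residue v.toValuationSubring (algebraMap K v.toValuationSubring c) =
      ffd_resEquiv hx v c := rfl
  rw [h2, AlgEquiv.symm_apply_apply]

/-- **the value at a finite place** `v` of the chart `B`, a `K`-point of `B`. -/
noncomputable def ffd_ev (v : Place K F) (hv : ffd_IsFin B v) : B →ₐ[K] K :=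
  { ffd_evHom hx v hv with commutes' := ffd_evHom_algebraMap hx v hv }

theorem ffd_ev_algebraMap (v : Place K F) (hv : ffd_IsFin B v) (c : K) :
    ffd_ev hx v hv (algebraMap K B c) = c := ffd_evHom_algebraMap hx v hv c

omit [IsAlgClosed K] [IsDedekindDomain B] [Algebra B F] [IsScalarTower K B F]
  [IsFractionRing B F] in
theorem ffd_pt_algebraMap (p : B →ₐ[K] K) (c : K) : p (algebraMap K B c) = c := by
  rw [AlgHom.commutes]; rfl

theorem ffd_ev_apply (v : Place K F) (hv : ffd_IsFin B v) (b : B) :
    ffd_ev hx v hv b = (ffd_resEquiv hx v).symm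
      (IsLocalRing.residue v.toValuationSubring (hw_inclB v hv b)) := rfl

/-- the kernel of the value map is the prime of the place. -/
theorem ffd_ker_ev (v : Place K F) (hv : ffd_IsFin B v) :
    RingHom.ker (ffd_ev hx v hv) = (hw_primeOfPlace v hv).asIdeal := by
  ext b
  rw [RingHom.mem_ker, ffd_ev_apply, map_eq_zero_iff _ (ffd_resEquiv hx v).symm.injective,
    IsLocalRing.residue_eq_zero_iff]
  rfl

theorem ffd_ev_surjective (v : Place K F) (hv : ffd_IsFin B v) :
    Function.Surjective (ffd_ev hx v hv) := fun c =>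
  ⟨algebraMap K B c, ffd_ev_algebraMap hx v hv c⟩

/-- `b - b(v)` vanishes at `v`. -/
theorem ffd_ev_spec (v : Place K F) (hv : ffd_IsFin B v) (b : B) :
    b - algebraMap K B (ffd_ev hx v hv b) ∈ (hw_primeOfPlace v hv).asIdeal := by
  rw [← ffd_ker_ev hx, RingHom.mem_ker, map_sub, ffd_ev_algebraMap, sub_self]

/-- characterisation of the value: `b(v) = c` iff `b - c` vanishes at `v`. -/
theorem ffd_ev_eq_iff (v : Place K F) (hv : ffd_IsFin B v) (b : B) (c : K) :
    ffd_ev hx v hv b = c ↔ b - algebraMap K B c ∈ (hw_primeOfPlace v hv).asIdeal := by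
  rw [← ffd_ker_ev hx, RingHom.mem_ker, map_sub, ffd_ev_algebraMap, sub_eq_zero]

/-! ### The place of a point -/

section point

variable (hB : ffd_IsChart K B x)

include hx hB

theorem ffd_ker_pt_ne_bot (p : B →ₐ[K] K) : RingHom.ker (p : B →+* K) ≠ ⊥ := by
  intro h
  have hinj : Function.Injective p := (RingHom.injective_iff_ker_eq_bot (p : B →+* K)).mpr h
  obtain ⟨b, hb⟩ := hB.exists_eq
  have hb' : b = algebraMap K B (p b) := by
    apply hinj
    rw [ffd_pt_algebraMap]
  apply hx.1
  rw [← hb, hb', ← IsScalarTower.algebraMap_apply]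
  exact isAlgebraic_algebraMap _

theorem ffd_ker_pt_isMaximal (p : B →ₐ[K] K) : (RingHom.ker (p : B →+* K)).IsMaximal :=
  RingHom.ker_isMaximal_of_surjective (p : B →+* K) fun c =>
    ⟨algebraMap K B c, ffd_pt_algebraMap p c⟩

/-- the prime of a `K`-point. -/
noncomputable def ffd_primeOfPt (p : B →ₐ[K] K) : HeightOneSpectrum B :=
  ⟨RingHom.ker (p : B →+* K), (ffd_ker_pt_isMaximal hx hB p).isPrime, ffd_ker_pt_ne_bot hx hB p⟩

/-- the place of a `K`-point. -/
noncomputable def ffd_placeOfPt (p : B →ₐ[K] K) : Place K F :=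
  hw_placeOfPrime B (ffd_primeOfPt hx hB p)

theorem ffd_isFin_placeOfPt (p : B →ₐ[K] K) : ffd_IsFin B (ffd_placeOfPt hx hB p) :=
  ffd_isFin_placeOfPrime B _

theorem ffd_primeOfPlace_placeOfPt (p : B →ₐ[K] K) :
    hw_primeOfPlace (ffd_placeOfPt hx hB p) (ffd_isFin_placeOfPt hx hB p) = ffd_primeOfPt hx hB p :=
  hw_primeOfPlace_placeOfPrime _

/-- the value at the place of `p` is `p`. -/
theorem ffd_ev_placeOfPt (p : B →ₐ[K] K) :
    ffd_ev hx (ffd_placeOfPt hx hB p) (ffd_isFin_placeOfPt hx hB p) = p := by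
  apply AlgHom.ext
  intro b
  rw [ffd_ev_eq_iff, ffd_primeOfPlace_placeOfPt]
  show b - algebraMap K B (p b) ∈ RingHom.ker (p : B →+* K)
  rw [RingHom.mem_ker]
  show p (b - algebraMap K B (p b)) = 0
  rw [map_sub, ffd_pt_algebraMap, sub_self]

omit hB in
/-- the place of the value map at `v` is `v`. -/
theorem ffd_placeOfPt_ev (hB : ffd_IsChart K B x) (v : Place K F) (hv : ffd_IsFin B v) :
    ffd_placeOfPt hx hB (ffd_ev hx v hv) = v := by
  rw [ffd_placeOfPt]
  have : ffd_primeOfPt hx hB (ffd_ev hx v hv) = hw_primeOfPlace v hv := by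
    apply HeightOneSpectrum.ext
    exact ffd_ker_ev hx v hv
  rw [this, hw_placeOfPrime_primeOfPlace]

/-- the divisor of a product of kernels of points. -/
theorem ffd_div_prod_ker {ι : Type*} (s : Finset ι) (p : ι → (B →ₐ[K] K)) :
    (ffd_div (∏ i ∈ s, RingHom.ker (p i : B →+* K)) : Divisor K F) =
      ∑ i ∈ s, Finsupp.single (ffd_placeOfPt hx hB (p i)) 1 := by
  rw [ffd_div_prod s _ fun i _ => ffd_ker_pt_ne_bot hx hB (p i)]
  refine Finset.sum_congr rfl fun i _ => ?_
  exact ffd_div_prime (K := K) (F := F) (ffd_primeOfPt hx hB (p i))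

/-- the ideal of a sum of points is the product of the kernels. -/
theorem ffd_ideal_sum_single {ι : Type*} (s : Finset ι) (p : ι → (B →ₐ[K] K)) :
    ffd_ideal B (∑ i ∈ s, Finsupp.single (ffd_placeOfPt hx hB (p i)) 1 : Divisor K F) =
      ∏ i ∈ s, RingHom.ker (p i : B →+* K) := by
  rw [← ffd_div_prod_ker hx hB s p]
  exact ffd_ideal_div (Finset.prod_ne_zero_iff.mpr fun i _ => ffd_ker_pt_ne_bot hx hB (p i))

/-- the degree of a product of `g` kernels of points is `g`. -/
theorem ffd_finrank_quot_prod_ker {ι : Type*} (s : Finset ι) (p : ι → (B →ₐ[K] K)) :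
    Module.finrank K (B ⧸ ∏ i ∈ s, RingHom.ker (p i : B →+* K)) = s.card := by
  have hxalg := hx.isAlgebraic
  have hne : (∏ i ∈ s, RingHom.ker (p i : B →+* K)) ≠ ⊥ :=
    Finset.prod_ne_zero_iff.mpr fun i _ => ffd_ker_pt_ne_bot hx hB (p i)
  have h := (ffd_finrank_quot (K := K) (F := F) x _ hne).2
  rw [ffd_div_prod_ker hx hB, map_sum] at h
  simp only [rt_degree_single hx] at h
  rw [Finset.sum_const, nsmul_eq_mul, mul_one] at h
  exact_mod_cast h

end point

end Fermat.Agent.FF
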